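import Mathlib
import Fermat.Prelude.Def_AlgebraicCurve_DivisorClassGroup

/-!
# S18 endgame (helper573): basic API for `AlgebraicCurve.Place`

Valuation-subring membership versus `adicValuation` / `ord`, constants, evaluation at places of
degree one, and the fibre-sum formula for `Finsupp.mapDomain`.
-/

set_option autoImplicit false

noncomputable section

namespace Fermat.Agent.S18.H573

open AlgebraicCurve IsDedekindDomain WithZero

variable {K F : Type*} [Field K] [Field F] [Algebra K F]

theorem val_le_one_of_mem (v : Place K F) {f : F} (hf : f ∈ v.toValuationSubring) :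
    v.adicValuation f ≤ 1 := by
  have := v.adicValuation_coe ⟨f, hf⟩
  rw [show ((⟨f, hf⟩ : v.toValuationSubring) : F) = f from rfl] at this
  rw [this]
  exact HeightOneSpectrum.intValuation_le_one _ _

theorem val_lt_one_of_mem_nonunit (v : Place K F) {f : F} (hf : f ∈ v.toValuationSubring)
    (hu : ¬ IsUnit (⟨f, hf⟩ : v.toValuationSubring)) : v.adicValuation f < 1 := by
  have h1 := v.adicValuation_coe ⟨f, hf⟩
  rw [show ((⟨f, hf⟩ : v.toValuationSubring) : F) = f from rfl] at h1
  have h2 := val_le_one_of_mem v hf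
  refine lt_of_le_of_ne h2 fun h => hu ?_
  have := (v.adicValuation_coe_eq_one_iff ⟨f, hf⟩).mp h
  exact this

theorem val_le_one_iff (v : Place K F) (f : F) :
    v.adicValuation f ≤ 1 ↔ f ∈ v.toValuationSubring := by
  refine ⟨fun h => ?_, val_le_one_of_mem v⟩
  by_contra hf
  have hf0 : f ≠ 0 := fun h0 => hf (h0 ▸ v.toValuationSubring.zero_mem)
  have hinv : f⁻¹ ∈ v.toValuationSubring := (v.toValuationSubring.mem_or_inv_mem f).resolve_left hf
  have hnu : ¬ IsUnit (⟨f⁻¹, hinv⟩ : v.toValuationSubring) := by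
    intro hu
    obtain ⟨b, hb⟩ := hu.exists_right_inv
    have hb' : f⁻¹ * (b : F) = 1 := by
      have := congrArg Subtype.val hb
      simpa using this
    have hbf : (b : F) = f := by
      field_simp at hb'
      exact hb'
    exact hf (hbf ▸ b.2)
  have hlt := val_lt_one_of_mem_nonunit v hinv hnu
  rw [map_inv₀] at hlt
  have hne : v.adicValuation f ≠ 0 := v.adicValuation_ne_zero hf0
  have : 1 < v.adicValuation f := by
    by_contra hcon
    have hcon := not_lt.mp hcon
    have : (1 : ℤᵐ⁰) ≤ (v.adicValuation f)⁻¹ := by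
      rw [one_le_inv₀ (zero_lt_iff.mpr hne)]
      exact hcon
    exact absurd hlt (not_lt.mpr this)
  exact absurd h (not_le.mpr this)

theorem val_algebraMap_le (v : Place K F) (c : K) : v.adicValuation (algebraMap K F c) ≤ 1 :=
  val_le_one_of_mem v (v.algebraMap_mem' c)

theorem val_algebraMap (v : Place K F) {c : K} (hc : c ≠ 0) :
    v.adicValuation (algebraMap K F c) = 1 := by
  refine le_antisymm (val_algebraMap_le v c) ?_
  have h1 := val_algebraMap_le v c⁻¹
  rw [map_inv₀, map_inv₀] at h1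
  have hne : v.adicValuation (algebraMap K F c) ≠ 0 :=
    v.adicValuation_ne_zero (by simpa using hc)
  by_contra hcon
  have hcon := not_le.mp hcon
  have : (1 : ℤᵐ⁰) < (v.adicValuation (algebraMap K F c))⁻¹ := by
    rw [one_lt_inv₀ (zero_lt_iff.mpr hne)]
    exact hcon
  exact absurd h1 (not_le.mpr this)

theorem val_eq_exp_neg_ord (v : Place K F) {f : F} (hf : f ≠ 0) :
    v.adicValuation f = exp (-v.ord f) := by
  rw [Place.ord, neg_neg, exp_log (v.adicValuation_ne_zero hf)]

theorem ord_nonneg_iff (v : Place K F) {f : F} (hf : f ≠ 0) :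
    0 ≤ v.ord f ↔ v.adicValuation f ≤ 1 := by
  rw [val_eq_exp_neg_ord v hf, ← exp_zero, exp_le_exp]
  omega

theorem ord_pos_iff (v : Place K F) {f : F} (hf : f ≠ 0) :
    0 < v.ord f ↔ v.adicValuation f < 1 := by
  rw [val_eq_exp_neg_ord v hf, ← exp_zero, exp_lt_exp]
  omega

theorem ord_le_iff (v : Place K F) {f : F} (hf : f ≠ 0) (n : ℤ) :
    n ≤ v.ord f ↔ v.adicValuation f ≤ exp (-n) := by
  rw [val_eq_exp_neg_ord v hf, exp_le_exp]
  omega

theorem ord_nonneg_of_val_le (v : Place K F) {f : F} (h : v.adicValuation f ≤ 1) :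
    0 ≤ v.ord f := by
  rcases eq_or_ne f 0 with rfl | hf
  · simp
  · exact (ord_nonneg_iff v hf).mpr h

theorem ord_algebraMap (v : Place K F) (c : K) : v.ord (algebraMap K F c) = 0 := by
  rcases eq_or_ne c 0 with rfl | hc
  · simp
  · rw [Place.ord, val_algebraMap v hc]
    simp

/-- Evaluation at a place of degree one. -/
theorem exists_val_sub_lt_one (v : Place K F) (hdeg : v.deg = 1) {f : F}
    (hf : v.adicValuation f ≤ 1) :
    ∃ c : K, v.adicValuation (f - algebraMap K F c) < 1 := by
  have hfm : f ∈ v.toValuationSubring := (val_le_one_iff v f).mp hf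
  have h1 : Module.finrank K v.ResidueField = 1 := hdeg
  have hone : (1 : v.ResidueField) ≠ 0 := one_ne_zero
  obtain ⟨c, hc⟩ := (finrank_eq_one_iff_of_nonzero' (1 : v.ResidueField) hone).mp h1
    (IsLocalRing.residue v.toValuationSubring ⟨f, hfm⟩)
  refine ⟨c, ?_⟩
  have hmem : f - algebraMap K F c ∈ v.toValuationSubring :=
    sub_mem hfm (v.algebraMap_mem' c)
  apply val_lt_one_of_mem_nonunit v hmem
  rw [← mem_nonunits_iff, ← IsLocalRing.mem_maximalIdeal, ← IsLocalRing.residue_eq_zero_iff]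
  have : (⟨f - algebraMap K F c, hmem⟩ : v.toValuationSubring)
      = ⟨f, hfm⟩ - algebraMap K v.toValuationSubring c := by
    ext; simp
  rw [this, map_sub, ← hc, sub_eq_zero]
  rw [Algebra.smul_def, mul_one]
  rfl

section FibreSum

variable {α β : Type*}

theorem mapDomain_apply_eq_sum [DecidableEq β] (r : α → β) (D : α →₀ ℤ) (x : β) :
    Finsupp.mapDomain r D x = ∑ P ∈ D.support, if r P = x then D P else 0 := by
  rw [Finsupp.mapDomain, Finsupp.sum_apply, Finsupp.sum]
  refine Finset.sum_congr rfl fun P _ => ?_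
  rw [Finsupp.single_apply]

theorem mapDomain_nonneg_of (r : α → β) (D : α →₀ ℤ) (x : β)
    (h : ∀ P, r P = x → 0 ≤ D P) : 0 ≤ Finsupp.mapDomain r D x := by
  classical
  rw [mapDomain_apply_eq_sum]
  refine Finset.sum_nonneg fun P _ => ?_
  split_ifs with hP
  · exact h P hP
  · exact le_rfl

theorem mapDomain_eq_zero_of (r : α → β) (D : α →₀ ℤ) (x : β)
    (h : ∀ P, r P = x → D P = 0) : Finsupp.mapDomain r D x = 0 := by
  classical
  rw [mapDomain_apply_eq_sum]
  refine Finset.sum_eq_zero fun P _ => ?_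
  split_ifs with hP
  · exact h P hP
  · rfl

theorem le_mapDomain_of (r : α → β) (D : α →₀ ℤ) (x : β)
    (h : ∀ P, r P = x → 0 ≤ D P) {P₀ : α} (hP₀ : r P₀ = x) :
    D P₀ ≤ Finsupp.mapDomain r D x := by
  classical
  rw [mapDomain_apply_eq_sum]
  by_cases hs : P₀ ∈ D.support
  · have hnn : ∀ P ∈ D.support, (0 : ℤ) ≤ if r P = x then D P else 0 := by
      intro P _
      split_ifs with hP
      · exact h P hP
      · exact le_rfl
    have := Finset.single_le_sum hnn hs
    rwa [if_pos hP₀] at this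
  · rw [Finsupp.notMem_support_iff] at hs
    rw [hs]
    refine Finset.sum_nonneg fun P _ => ?_
    split_ifs with hP
    · exact h P hP
    · exact le_rfl

theorem mapDomain_pos_of (r : α → β) (D : α →₀ ℤ) (x : β)
    (h : ∀ P, r P = x → 0 ≤ D P) {P₀ : α} (hP₀ : r P₀ = x) (hpos : 0 < D P₀) :
    0 < Finsupp.mapDomain r D x :=
  lt_of_lt_of_le hpos (le_mapDomain_of r D x h hP₀)

/-- If `D ≥ 0` on the fibre over `x` and the fibre sum is `≤ 0` then `D = 0` on the fibre. -/
theorem eq_zero_of_mapDomain_le_zero (r : α → β) (D : α →₀ ℤ) (x : β)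
    (h : ∀ P, r P = x → 0 ≤ D P) (h0 : Finsupp.mapDomain r D x ≤ 0) {P₀ : α} (hP₀ : r P₀ = x) :
    D P₀ = 0 :=
  le_antisymm ((le_mapDomain_of r D x h hP₀).trans h0) (h P₀ hP₀)

/-- two distinct points of the fibre: the sum dominates the sum of the two values -/
theorem add_le_mapDomain_of (r : α → β) (D : α →₀ ℤ) (x : β)
    (h : ∀ P, r P = x → 0 ≤ D P) {P₀ P₁ : α} (hP₀ : r P₀ = x) (hP₁ : r P₁ = x) (hne : P₀ ≠ P₁) :
    D P₀ + D P₁ ≤ Finsupp.mapDomain r D x := by
  classical
  have key : Finsupp.mapDomain r D x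
      = D P₀ + Finsupp.mapDomain r (D - Finsupp.single P₀ (D P₀)) x := by
    have : D = Finsupp.single P₀ (D P₀) + (D - Finsupp.single P₀ (D P₀)) := by abel
    conv_lhs => rw [this]
    rw [Finsupp.mapDomain_add, Finsupp.add_apply, Finsupp.mapDomain_single, hP₀,
      Finsupp.single_eq_same]
  rw [key]
  have h2 : ∀ P, r P = x → 0 ≤ (D - Finsupp.single P₀ (D P₀)) P := by
    intro P hP
    rw [Finsupp.sub_apply, Finsupp.single_apply]
    split_ifs with hPP
    · rw [← hPP, sub_self]
    · rw [sub_zero]; exact h P hP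
  have h3 := le_mapDomain_of r (D - Finsupp.single P₀ (D P₀)) x h2 hP₁
  rw [Finsupp.sub_apply, Finsupp.single_apply, if_neg hne, sub_zero] at h3
  omega

/-- If `D ≥ 0` on the fibre over `x` and the fibre sum is `1`, there is exactly one point of the
fibre in the support, with multiplicity one. -/
theorem exists_unique_of_mapDomain_eq_one (r : α → β) (D : α →₀ ℤ) (x : β)
    (h : ∀ P, r P = x → 0 ≤ D P) (h1 : Finsupp.mapDomain r D x = 1) :
    ∃ P₀, r P₀ = x ∧ D P₀ = 1 ∧ ∀ P, r P = x → P ≠ P₀ → D P = 0 := by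
  classical
  have hex : ∃ P₀, r P₀ = x ∧ 0 < D P₀ := by
    by_contra hcon
    have : Finsupp.mapDomain r D x = 0 := by
      refine mapDomain_eq_zero_of r D x fun P hP => ?_
      by_contra hne
      exact hcon ⟨P, hP, lt_of_le_of_ne (h P hP) (Ne.symm hne)⟩
    omega
  obtain ⟨P₀, hP₀, hpos⟩ := hex
  have hle := le_mapDomain_of r D x h hP₀
  refine ⟨P₀, hP₀, by omega, fun P hP hne => ?_⟩
  have := add_le_mapDomain_of r D x h hP₀ hP (Ne.symm hne)
  have := h P hP
  omega

end FibreSum

end Fermat.Agent.S18.H573
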