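import Mathlib
import Fermat.Prelude.Def_AlgebraicCurve_DivisorClassGroup
import Fermat.Agent.S18.H573.PlaceBasic

/-!
# S18 endgame (helper573): abstract reduction data

`RedData A π F Fk r` packages what the hypothesis `h : ReductionInputsModL A N` of S18 gives (together
with "functions without zeros and poles are constant"): a partially defined reduction
`Red : F → Fk → Prop` of functions, compatible with `+`, `*`, constants and inverses, such that
* (push) for `Red f fb`, `fb ≠ 0`:  `r_* div f = div fb`;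
* (normal) every `f ≠ 0` is `c • u` with `c ∈ Kˣ` and `u` reducing to something nonzero.
-/

set_option autoImplicit false

noncomputable section

namespace Fermat.Agent.S18.H573

open AlgebraicCurve IsDedekindDomain WithZero

structure RedData {K : Type*} [Field K] (A : ValuationSubring K) {k : Type*} [Field k]
    (π : A →+* k) (F : Type*) [Field F] [Algebra K F] (Fk : Type*) [Field Fk] [Algebra k Fk]
    (r : Place K F → Place k Fk) where
  Red : F → Fk → Prop
  π_surj : Function.Surjective π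
  π_ker : ∀ a : A, π a = 0 ↔ ¬ IsUnit a
  red_add : ∀ {f g : F} {fb gb : Fk}, Red f fb → Red g gb → Red (f + g) (fb + gb)
  red_mul : ∀ {f g : F} {fb gb : Fk}, Red f fb → Red g gb → Red (f * g) (fb * gb)
  red_const : ∀ a : A, Red (algebraMap K F (a : K)) (algebraMap k Fk (π a))
  red_unique : ∀ {f : F} {fb fb' : Fk}, Red f fb → Red f fb' → fb = fb'
  red_inv : ∀ {f : F} {fb : Fk}, Red f fb → fb ≠ 0 → Red f⁻¹ fb⁻¹
  push : ∀ {f : F} {fb : Fk}, Red f fb → fb ≠ 0 → ∀ D : Divisor K F,
    (∀ P, D P = P.ord f) → ∀ Q, Finsupp.mapDomain r D Q = Q.ord fb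
  normal : ∀ f : F, f ≠ 0 → ∃ (c : K) (u : F) (ub : Fk),
    c ≠ 0 ∧ Red u ub ∧ ub ≠ 0 ∧ f = algebraMap K F c * u

namespace RedData

variable {K : Type*} [Field K] {A : ValuationSubring K} {k : Type*} [Field k]
    {π : A →+* k} {F : Type*} [Field F] [Algebra K F] {Fk : Type*} [Field Fk] [Algebra k Fk]
    {r : Place K F → Place k Fk} (RD : RedData A π F Fk r)

include RD

theorem red_zero : RD.Red 0 0 := by
  have := RD.red_const 0
  simpa using this

theorem red_one : RD.Red 1 1 := by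
  have := RD.red_const 1
  simpa using this

theorem red_neg {f : F} {fb : Fk} (h : RD.Red f fb) : RD.Red (-f) (-fb) := by
  have h1 := RD.red_const (-1)
  have h2 := RD.red_mul h1 h
  simpa using h2

theorem red_sub {f g : F} {fb gb : Fk} (hf : RD.Red f fb) (hg : RD.Red g gb) :
    RD.Red (f - g) (fb - gb) := by
  rw [sub_eq_add_neg, sub_eq_add_neg]
  exact RD.red_add hf (RD.red_neg hg)

theorem red_pow {f : F} {fb : Fk} (h : RD.Red f fb) (n : ℕ) : RD.Red (f ^ n) (fb ^ n) := by
  induction n with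
  | zero => simpa using RD.red_one
  | succ n ih => rw [pow_succ, pow_succ]; exact RD.red_mul ih h

theorem red_div {f g : F} {fb gb : Fk} (hf : RD.Red f fb) (hg : RD.Red g gb) (hgb : gb ≠ 0) :
    RD.Red (f / g) (fb / gb) := by
  rw [div_eq_mul_inv, div_eq_mul_inv]
  exact RD.red_mul hf (RD.red_inv hg hgb)

theorem ne_zero_of_red {f : F} {fb : Fk} (h : RD.Red f fb) (hfb : fb ≠ 0) : f ≠ 0 := by
  rintro rfl
  exact hfb (RD.red_unique h RD.red_zero)

theorem red_geom_sum {f : F} (h : RD.Red f 1) (n : ℕ) :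
    RD.Red (∑ i ∈ Finset.range n, f ^ i) (n : Fk) := by
  induction n with
  | zero => simpa using RD.red_zero
  | succ n ih =>
    rw [Finset.sum_range_succ, Nat.cast_succ]
    have := RD.red_pow h n
    rw [one_pow] at this
    exact RD.red_add ih this

/-- constants of `K` lying in `A` -/
theorem red_constK {c : K} (hc : c ∈ A) :
    RD.Red (algebraMap K F c) (algebraMap k Fk (π ⟨c, hc⟩)) :=
  RD.red_const ⟨c, hc⟩

omit RD in
theorem isUnit_of_inv_mem {c : K} (hc : c ∈ A) (hc0 : c ≠ 0) (hci : c⁻¹ ∈ A) :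
    IsUnit (⟨c, hc⟩ : A) := by
  refine IsUnit.of_mul_eq_one (⟨c⁻¹, hci⟩ : A) ?_
  ext
  simp [hc0]

theorem π_eq_zero_of_inv_notMem {c : K} (hc : c ∈ A) (hci : c⁻¹ ∉ A) : π ⟨c, hc⟩ = 0 := by
  rw [RD.π_ker]
  intro hu
  obtain ⟨b, hb⟩ := hu.exists_right_inv
  have hb' : c * (b : K) = 1 := by
    have := congrArg Subtype.val hb
    simpa using this
  have hc0 : c ≠ 0 := by
    rintro rfl
    simp at hb'
  have : (b : K) = c⁻¹ := by
    field_simp
    rw [mul_comm]; exact hb'
  exact hci (this ▸ b.2)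

theorem π_ne_zero_of_inv_mem {c : K} (hc : c ∈ A) (hc0 : c ≠ 0) (hci : c⁻¹ ∈ A) :
    π ⟨c, hc⟩ ≠ 0 := by
  rw [Ne, RD.π_ker, not_not]
  exact isUnit_of_inv_mem hc hc0 hci

theorem inv_mem_of_π_ne_zero {c : K} (hc : c ∈ A) (h : π ⟨c, hc⟩ ≠ 0) : c⁻¹ ∈ A := by
  by_contra hci
  exact h (RD.π_eq_zero_of_inv_notMem hc hci)

/-- Scalar lemma: if `u` reduces to `ub ≠ 0` and `c • u` is integral then `c ∈ A` and the
reduction of `c • u` is `π c • ub`. -/
theorem scalar_mem {u : F} {ub fb : Fk} (hu : RD.Red u ub) (hub : ub ≠ 0) {c : K}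
    (h : RD.Red (algebraMap K F c * u) fb) :
    ∃ hc : c ∈ A, fb = algebraMap k Fk (π ⟨c, hc⟩) * ub := by
  have hcA : c ∈ A := by
    by_contra hc
    have hci : c⁻¹ ∈ A := (A.mem_or_inv_mem c).resolve_left hc
    have hc0 : c ≠ 0 := fun h0 => hc (h0 ▸ A.zero_mem)
    have hπ : π ⟨c⁻¹, hci⟩ = 0 := by
      apply RD.π_eq_zero_of_inv_notMem hci
      rwa [inv_inv]
    have h1 := RD.red_mul (RD.red_constK hci) h
    rw [hπ, map_zero, zero_mul, ← mul_assoc, ← map_mul, inv_mul_cancel₀ hc0, map_one,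
      one_mul] at h1
    exact hub (RD.red_unique hu h1)
  exact ⟨hcA, RD.red_unique h (RD.red_mul (RD.red_constK hcA) hu)⟩

/-- Integral functions with zero reduction are divisible by an element of the maximal ideal. -/
theorem exists_small_of_red_zero {f : F} (hf : f ≠ 0) (h : RD.Red f 0) :
    ∃ (b : K) (hb : b ∈ A) (U : F) (Ub : Fk), b ≠ 0 ∧ π ⟨b, hb⟩ = 0 ∧ RD.Red U Ub ∧ Ub ≠ 0 ∧
      f = algebraMap K F b * U := by
  obtain ⟨c, u, ub, hc0, hu, hub, rfl⟩ := RD.normal f hf
  obtain ⟨hc, hfb⟩ := RD.scalar_mem hu hub h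
  refine ⟨c, hc, u, ub, hc0, ?_, hu, hub, rfl⟩
  have : algebraMap k Fk (π ⟨c, hc⟩) = 0 := by
    rcases mul_eq_zero.mp hfb.symm with h1 | h1
    · exact h1
    · exact absurd h1 hub
  exact (map_eq_zero (algebraMap k Fk)).mp this

section Push

variable [HasPrincipalDivisors K F]

omit RD in
theorem exists_div (f : F) (hf : f ≠ 0) : ∃ D : Divisor K F, ∀ P, D P = P.ord f := by
  obtain ⟨D, hD, _⟩ := HasPrincipalDivisors.exists_divisor (K := K) f hf
  exact ⟨D, hD⟩

/-- the reduction of a function regular on the fibre over `x` is regular at `x` -/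
theorem val_red_le_one {f : F} {fb : Fk} (hf : RD.Red f fb) (x : Place k Fk)
    (hreg : ∀ P, r P = x → P.adicValuation f ≤ 1) : x.adicValuation fb ≤ 1 := by
  rcases eq_or_ne fb 0 with rfl | hfb
  · simp
  have hf0 := RD.ne_zero_of_red hf hfb
  obtain ⟨D, hD⟩ := exists_div (K := K) f hf0
  have h1 := RD.push hf hfb D hD x
  rw [← ord_nonneg_iff x hfb, ← h1]
  refine mapDomain_nonneg_of r D x fun P hP => ?_
  rw [hD]
  exact ord_nonneg_of_val_le P (hreg P hP)

/-- the reduction of a function regular on the fibre over `x` with a zero in the fibre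
vanishes at `x` -/
theorem val_red_lt_one {f : F} {fb : Fk} (hf : RD.Red f fb) (x : Place k Fk)
    (hreg : ∀ P, r P = x → P.adicValuation f ≤ 1) {P₀ : Place K F} (hP₀ : r P₀ = x)
    (h0 : P₀.adicValuation f < 1) : x.adicValuation fb < 1 := by
  rcases eq_or_ne fb 0 with rfl | hfb
  · simp
  have hf0 := RD.ne_zero_of_red hf hfb
  obtain ⟨D, hD⟩ := exists_div (K := K) f hf0
  have h1 := RD.push hf hfb D hD x
  rw [← ord_pos_iff x hfb, ← h1]
  refine mapDomain_pos_of r D x (fun P hP => ?_) hP₀ ?_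
  · rw [hD]
    exact ord_nonneg_of_val_le P (hreg P hP)
  · rw [hD]
    exact (ord_pos_iff P₀ hf0).mpr h0

/-- VALUE LEMMA: values of integral functions regular on a fibre are integral, and reduction
commutes with evaluation. -/
theorem value_lemma {f : F} {fb : Fk} (hf : RD.Red f fb) (x : Place k Fk)
    (hreg : ∀ P, r P = x → P.adicValuation f ≤ 1) {P₀ : Place K F} (hP₀ : r P₀ = x)
    {c : K} (hc : P₀.adicValuation (f - algebraMap K F c) < 1) :
    ∃ hcA : c ∈ A, x.adicValuation (fb - algebraMap k Fk (π ⟨c, hcA⟩)) < 1 := by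
  have hcA : c ∈ A := by
    by_contra hcn
    have hci : c⁻¹ ∈ A := (A.mem_or_inv_mem c).resolve_left hcn
    have hc0 : c ≠ 0 := fun h0 => hcn (h0 ▸ A.zero_mem)
    have hπ : π ⟨c⁻¹, hci⟩ = 0 := by
      apply RD.π_eq_zero_of_inv_notMem hci
      rwa [inv_inv]
    have h1 : RD.Red (1 - algebraMap K F c⁻¹ * f) 1 := by
      have := RD.red_sub RD.red_one (RD.red_mul (RD.red_constK hci) hf)
      rwa [hπ, map_zero, zero_mul, sub_zero] at this
    have hreg' : ∀ P, r P = x → P.adicValuation (1 - algebraMap K F c⁻¹ * f) ≤ 1 := by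
      intro P hP
      refine le_trans (Valuation.map_sub _ _ _) (max_le ?_ ?_)
      · rw [map_one]
      · rw [map_mul]
        exact mul_le_one' (val_algebraMap_le P _) (hreg P hP)
    have h0 : P₀.adicValuation (1 - algebraMap K F c⁻¹ * f) < 1 := by
      have : 1 - algebraMap K F c⁻¹ * f = -(algebraMap K F c⁻¹ * (f - algebraMap K F c)) := by
        rw [mul_sub, ← map_mul, inv_mul_cancel₀ hc0, map_one]
        ring
      rw [this, Valuation.map_neg, map_mul]
      calc P₀.adicValuation (algebraMap K F c⁻¹) * P₀.adicValuation (f - algebraMap K F c)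
          ≤ 1 * P₀.adicValuation (f - algebraMap K F c) :=
            mul_le_mul_left (val_algebraMap_le P₀ _) _
        _ < 1 := by rwa [one_mul]
    have := RD.val_red_lt_one h1 x hreg' hP₀ h0
    rw [map_one] at this
    exact lt_irrefl _ this
  refine ⟨hcA, ?_⟩
  have h1 := RD.red_sub hf (RD.red_constK hcA)
  refine RD.val_red_lt_one h1 x (fun P hP => ?_) hP₀ hc
  refine le_trans (Valuation.map_sub _ _ _) (max_le (hreg P hP) (val_algebraMap_le P _))

/-- a regular integral function whose reduction has a simple zero at `x` has, in the fibre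
over `x`, exactly one zero, which is simple -/
theorem exists_simple_zero {t : F} {tb : Fk} (ht : RD.Red t tb) (x : Place k Fk)
    (hx : x.ord tb = 1) (hreg : ∀ P, r P = x → P.adicValuation t ≤ 1) :
    ∃ Q, r Q = x ∧ Q.ord t = 1 ∧ ∀ P, r P = x → P ≠ Q → P.ord t = 0 := by
  have htb : tb ≠ 0 := by
    rintro rfl
    simp at hx
  have ht0 := RD.ne_zero_of_red ht htb
  obtain ⟨D, hD⟩ := exists_div (K := K) t ht0
  have h1 := RD.push ht htb D hD x
  rw [hx] at h1
  obtain ⟨Q, hQ, hQ1, hQ2⟩ := exists_unique_of_mapDomain_eq_one r D x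
    (fun P hP => by rw [hD]; exact ord_nonneg_of_val_le P (hreg P hP)) h1
  refine ⟨Q, hQ, by rw [← hD]; exact hQ1, fun P hP hne => ?_⟩
  rw [← hD]
  exact hQ2 P hP hne

theorem simple_zero_unique {t : F} {tb : Fk} (ht : RD.Red t tb) (x : Place k Fk)
    (hx : x.ord tb = 1) (hreg : ∀ P, r P = x → P.adicValuation t ≤ 1)
    {P₀ : Place K F} (hP₀ : r P₀ = x) (h0 : P₀.adicValuation t < 1) :
    P₀.ord t = 1 ∧ ∀ P, r P = x → P ≠ P₀ → P.ord t = 0 := by
  obtain ⟨Q, hQ, hQ1, hQ2⟩ := RD.exists_simple_zero ht x hx hreg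
  have htb : tb ≠ 0 := by
    rintro rfl
    simp at hx
  have ht0 := RD.ne_zero_of_red ht htb
  have : P₀ = Q := by
    by_contra hne
    have h1 := hQ2 P₀ hP₀ hne
    have h2 := (ord_pos_iff P₀ ht0).mpr h0
    omega
  subst this
  exact ⟨hQ1, hQ2⟩

end Push

end RedData

end Fermat.Agent.S18.H573
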