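import Mathlib
import Fermat.Prelude.Def_AlgebraicCurve_DivisorClassGroup
import Fermat.Agent.S18.H573.RedData

/-!
# S18 endgame (helper573): the local pole bound

If `Y` reduces to `1`, has divisor `m (P' - Q)` on the fibre over `x` (`m` invertible in `k`),
and `Y - 1 = b • U` with `U` reducing to `Ub ≠ 0`, then `Ub` has at most a simple pole at `x`.
-/

set_option autoImplicit false

noncomputable section

namespace Fermat.Agent.S18.H573

open AlgebraicCurve IsDedekindDomain WithZero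

section Comb

variable {k Fk : Type*} [Field k] [Field Fk] [Algebra k Fk]

/-- a `k`-combination of a function with a simple pole and a regular nonzero function is nonzero
and has at most a simple pole -/
theorem comb_ne_zero_and_val_le (x : Place k Fk) {lam W : Fk}
    (hlam : x.adicValuation lam = exp (1 : ℤ)) (hW : x.adicValuation W ≤ 1) (hW0 : W ≠ 0)
    {α γ : k} (h : α ≠ 0 ∨ γ ≠ 0) :
    algebraMap k Fk α * lam + algebraMap k Fk γ * W ≠ 0 ∧
      x.adicValuation (algebraMap k Fk α * lam + algebraMap k Fk γ * W) ≤ exp (1 : ℤ) := by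
  have hone : (1 : ℤᵐ⁰) < exp (1 : ℤ) := by
    rw [← exp_zero, exp_lt_exp]; exact one_pos
  have h2 : x.adicValuation (algebraMap k Fk γ * W) ≤ 1 := by
    rw [map_mul]
    exact mul_le_one' (val_algebraMap_le x γ) hW
  by_cases hα : α = 0
  · have hγ : γ ≠ 0 := h.resolve_left (not_not.mpr hα)
    subst hα
    rw [map_zero, zero_mul, zero_add]
    refine ⟨mul_ne_zero (by simpa using hγ) hW0, h2.trans hone.le⟩
  · have h1 : x.adicValuation (algebraMap k Fk α * lam) = exp (1 : ℤ) := by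
      rw [map_mul, val_algebraMap x hα, one_mul, hlam]
    have h3 : x.adicValuation (algebraMap k Fk α * lam + algebraMap k Fk γ * W) = exp (1 : ℤ) := by
      rw [Valuation.map_add_eq_of_lt_left _ (by rw [h1]; exact lt_of_le_of_lt h2 hone), h1]
    refine ⟨fun h0 => ?_, h3.le⟩
    rw [h0, map_zero] at h3
    exact exp_ne_zero h3.symm

end Comb

variable {K : Type*} [Field K] {A : ValuationSubring K} {k : Type*} [Field k]
    {π : A →+* k} {F : Type*} [Field F] [Algebra K F] {Fk : Type*} [Field Fk] [Algebra k Fk]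
    {r : Place K F → Place k Fk}

/-- in a valuation ring, two elements not both zero can be scaled so that both are integral
and one of them is `1`. -/
theorem exists_scale (A : ValuationSubring K) {τ c : K} (h : τ ≠ 0 ∨ c ≠ 0) :
    ∃ β : K, β ≠ 0 ∧ τ / β ∈ A ∧ c / β ∈ A ∧ (τ / β = 1 ∨ c / β = 1) := by
  by_cases hc : c = 0
  · have hτ : τ ≠ 0 := h.resolve_right (not_not.mpr hc)
    refine ⟨τ, hτ, ?_, ?_, Or.inl (div_self hτ)⟩
    · rw [div_self hτ]; exact A.one_mem
    · rw [hc, zero_div]; exact A.zero_mem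
  · by_cases h1 : τ / c ∈ A
    · refine ⟨c, hc, h1, ?_, Or.inr (div_self hc)⟩
      rw [div_self hc]; exact A.one_mem
    · have hτ : τ ≠ 0 := by
        rintro rfl
        exact h1 (by rw [zero_div]; exact A.zero_mem)
      have h2 : (τ / c)⁻¹ ∈ A := (A.mem_or_inv_mem _).resolve_left h1
      rw [inv_div] at h2
      refine ⟨τ, hτ, ?_, h2, Or.inl (div_self hτ)⟩
      rw [div_self hτ]; exact A.one_mem

theorem local_bound (RD : RedData A π F Fk r) [HasPrincipalDivisors K F]
    (hF1 : ∀ P : Place K F, P.deg = 1) (m : ℕ) (hm : (m : k) ≠ 0)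
    (x : Place k Fk) {t : F} {tb : Fk} (ht : RD.Red t tb) (hx : x.ord tb = 1)
    (hreg : ∀ P, r P = x → P.adicValuation t ≤ 1)
    {Q P' : Place K F} (hQ : r Q = x) (hQt : Q.ord t = 1) (hP' : r P' = x)
    {Y : F} (hY : RD.Red Y 1) (e₁ e₀ : Place K F → ℤ)
    (he₁ : e₁ P' = 1) (he₁' : ∀ P, r P = x → P ≠ P' → e₁ P = 0)
    (he₀ : e₀ Q = 1) (he₀' : ∀ P, r P = x → P ≠ Q → e₀ P = 0)
    (hYord : ∀ P, r P = x → P.ord Y = m * (e₁ P - e₀ P))
    {b : K} (hb : b ≠ 0) {U : F} {Ub : Fk} (hU : RD.Red U Ub) (hUb : Ub ≠ 0)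
    (hYU : Y - 1 = algebraMap K F b * U) :
    -1 ≤ x.ord Ub := by
  classical
  have htb : tb ≠ 0 := by
    rintro rfl
    simp at hx
  have ht0 : t ≠ 0 := RD.ne_zero_of_red ht htb
  have hvtb : x.adicValuation tb = exp (-1 : ℤ) := by
    rw [val_eq_exp_neg_ord x htb, hx]
  have hvtb_lt : x.adicValuation tb < 1 := by
    rw [hvtb, ← exp_zero, exp_lt_exp]; omega
  -- (a) the value τ of t at P'
  obtain ⟨τ, hτ⟩ := exists_val_sub_lt_one P' (hF1 P') (hreg P' hP')
  obtain ⟨hτA, hτx⟩ := RD.value_lemma ht x hreg hP' hτ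
  have hπτ : π ⟨τ, hτA⟩ = 0 := by
    by_contra hne
    have h1 : x.adicValuation (algebraMap k Fk (π ⟨τ, hτA⟩)) = 1 := val_algebraMap x hne
    have h2 : x.adicValuation (algebraMap k Fk (π ⟨τ, hτA⟩)) < 1 := by
      have : algebraMap k Fk (π ⟨τ, hτA⟩) = tb - (tb - algebraMap k Fk (π ⟨τ, hτA⟩)) := by ring
      rw [this]
      exact Valuation.map_sub_lt _ hvtb_lt hτx
    rw [h1] at h2
    exact lt_irrefl _ h2
  -- (b) t₁ = t - τ
  set t₁ : F := t - algebraMap K F τ with ht₁def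
  have ht₁ : RD.Red t₁ tb := by
    have := RD.red_sub ht (RD.red_constK hτA)
    rwa [hπτ, map_zero, sub_zero] at this
  have ht₁0 : t₁ ≠ 0 := RD.ne_zero_of_red ht₁ htb
  have hreg₁ : ∀ P, r P = x → P.adicValuation t₁ ≤ 1 := fun P hP =>
    Valuation.map_sub_le _ (hreg P hP) (val_algebraMap_le P _)
  obtain ⟨hP't₁, hPt₁⟩ := RD.simple_zero_unique ht₁ x hx hreg₁ hP' hτ
  have hQlt : Q.adicValuation t < 1 := (ord_pos_iff Q ht0).mp (by rw [hQt]; exact one_pos)
  obtain ⟨_, hPt⟩ := RD.simple_zero_unique ht x hx hreg hQ hQlt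
  have hordt : ∀ P, r P = x → P.ord t = e₀ P := by
    intro P hP
    by_cases h : P = Q
    · rw [h, hQt, he₀]
    · rw [hPt P hP h, he₀' P hP h]
  have hordt₁ : ∀ P, r P = x → P.ord t₁ = e₁ P := by
    intro P hP
    by_cases h : P = P'
    · rw [h, hP't₁, he₁]
    · rw [hPt₁ P hP h, he₁' P hP h]
  -- (c) Z = t₁ / t
  set Z : F := t₁ / t with hZdef
  have hZ : RD.Red Z 1 := by
    have := RD.red_div ht₁ ht htb
    rwa [div_self htb] at this
  have hZ0 : Z ≠ 0 := div_ne_zero ht₁0 ht0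
  have hZm0 : Z ^ m ≠ 0 := pow_ne_zero _ hZ0
  have hordZ : ∀ P, r P = x → P.ord Z = e₁ P - e₀ P := by
    intro P hP
    rw [hZdef, div_eq_mul_inv, P.ord_mul ht₁0 (inv_ne_zero ht0), P.ord_inv, hordt P hP,
      hordt₁ P hP]
    ring
  -- (d) H = Y / Z^m
  have hY0 : Y ≠ 0 := RD.ne_zero_of_red hY one_ne_zero
  set H : F := Y / Z ^ m with hHdef
  have hH : RD.Red H 1 := by
    have := RD.red_div hY (RD.red_pow hZ m) (by simp)
    simpa using this
  have hH0 : H ≠ 0 := div_ne_zero hY0 hZm0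
  have hordH : ∀ P, r P = x → P.ord H = 0 := by
    intro P hP
    have hzp : P.ord (Z ^ m) = m * P.ord Z := by
      have := P.ord_zpow Z (m : ℤ)
      rwa [zpow_natCast] at this
    rw [hHdef, div_eq_mul_inv, P.ord_mul hY0 (inv_ne_zero hZm0), P.ord_inv, hzp, hYord P hP,
      hordZ P hP]
    ring
  have hvalH : ∀ P, r P = x → P.adicValuation H = 1 := by
    intro P hP
    rw [val_eq_exp_neg_ord P hH0, hordH P hP, neg_zero, exp_zero]
  -- (e) geometric sum
  set S : F := ∑ i ∈ Finset.range m, Z ^ i with hSdef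
  have hS : RD.Red S (m : Fk) := RD.red_geom_sum hZ m
  set lam : F := -(t⁻¹ * S) with hlamdef
  set lamb : Fk := -(tb⁻¹ * (m : Fk)) with hlambdef
  have hlam : RD.Red lam lamb := RD.red_neg (RD.red_mul (RD.red_inv ht htb) hS)
  have hmFk : (m : Fk) = algebraMap k Fk (m : k) := (map_natCast (algebraMap k Fk) m).symm
  have hvlamb : x.adicValuation lamb = exp (1 : ℤ) := by
    rw [hlambdef, Valuation.map_neg, map_mul, map_inv₀, hvtb, hmFk, val_algebraMap x hm, mul_one,
      ← exp_neg, neg_neg]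
  have hZm : Z ^ m - 1 = algebraMap K F τ * lam := by
    rw [← geom_sum_mul Z m, ← hSdef, hlamdef, hZdef, ht₁def]
    field_simp
    ring
  -- (f) the regular part
  have hHm1 : RD.Red (H - 1) 0 := by
    have := RD.red_sub hH RD.red_one
    rwa [sub_self] at this
  have hsplit : Y - 1 = (Z ^ m - 1) + Z ^ m * (H - 1) := by
    rw [hHdef]
    field_simp
    ring
  obtain ⟨c, hcA, W', Wb, hW', hWb0, hWbv, hcW⟩ :
      ∃ (c : K) (_ : c ∈ A) (W' : F) (Wb : Fk), RD.Red W' Wb ∧ Wb ≠ 0 ∧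
        x.adicValuation Wb ≤ 1 ∧ Z ^ m * (H - 1) = algebraMap K F c * W' := by
    by_cases hH1 : H - 1 = 0
    · refine ⟨0, A.zero_mem, 1, 1, RD.red_one, one_ne_zero, by rw [map_one], ?_⟩
      rw [hH1, map_zero, mul_zero, zero_mul]
    · obtain ⟨c, hcA, W, Wb, hc0, _, hW, hWb0, hHW⟩ := RD.exists_small_of_red_zero hH1 hHm1
      refine ⟨c, hcA, Z ^ m * W, Wb, ?_, hWb0, ?_, ?_⟩
      · have := RD.red_mul (RD.red_pow hZ m) hW
        simpa using this
      · refine RD.val_red_le_one hW x fun P hP => ?_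
        have hW_eq : W = (algebraMap K F c)⁻¹ * (H - 1) := by
          rw [hHW, ← mul_assoc, inv_mul_cancel₀ (by simpa using hc0), one_mul]
        rw [hW_eq, map_mul, map_inv₀, val_algebraMap P hc0, inv_one, one_mul]
        exact Valuation.map_sub_le _ (hvalH P hP).le (by rw [map_one])
      · rw [hHW]; ring
  -- (g) comparison of sizes
  have hbU : algebraMap K F b * U = algebraMap K F τ * lam + algebraMap K F c * W' := by
    rw [← hYU, hsplit, hZm, hcW]
  have hU0 : U ≠ 0 := RD.ne_zero_of_red hU hUb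
  have hτc : τ ≠ 0 ∨ c ≠ 0 := by
    by_contra hcon
    rw [not_or, not_not, not_not] at hcon
    rw [hcon.1, hcon.2, map_zero, zero_mul, zero_mul, add_zero] at hbU
    rcases mul_eq_zero.mp hbU with h1 | h1
    · exact hb (by simpa using h1)
    · exact hU0 h1
  obtain ⟨β, hβ0, hτβ, hcβ, hone⟩ := exists_scale A hτc
  have hR : RD.Red (algebraMap K F (b / β) * U)
      (algebraMap k Fk (π ⟨τ / β, hτβ⟩) * lamb + algebraMap k Fk (π ⟨c / β, hcβ⟩) * Wb) := by
    have h1 := RD.red_add (RD.red_mul (RD.red_constK hτβ) hlam) (RD.red_mul (RD.red_constK hcβ) hW')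
    have h2 : algebraMap K F (b / β) * U
        = algebraMap K F (τ / β) * lam + algebraMap K F (c / β) * W' := by
      rw [div_eq_mul_inv, div_eq_mul_inv, div_eq_mul_inv, map_mul, map_mul, map_mul]
      have hβF : algebraMap K F β ≠ 0 := by simpa using hβ0
      rw [map_inv₀]
      field_simp
      linear_combination hbU
    rwa [h2]
  have hαγ : π ⟨τ / β, hτβ⟩ ≠ 0 ∨ π ⟨c / β, hcβ⟩ ≠ 0 := by
    rcases hone with h1 | h1
    · left
      have : (⟨τ / β, hτβ⟩ : A) = 1 := Subtype.ext h1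
      rw [this, map_one]; exact one_ne_zero
    · right
      have : (⟨c / β, hcβ⟩ : A) = 1 := Subtype.ext h1
      rw [this, map_one]; exact one_ne_zero
  obtain ⟨hRne, hRle⟩ := comb_ne_zero_and_val_le x hvlamb hWbv hWb0 hαγ
  obtain ⟨hbβ, hReq⟩ := RD.scalar_mem hU hUb hR
  rw [hReq] at hRne hRle
  have hπb : π ⟨b / β, hbβ⟩ ≠ 0 := by
    intro h0
    rw [h0, map_zero, zero_mul] at hRne
    exact hRne rfl
  rw [map_mul, val_algebraMap x hπb, one_mul] at hRle
  rw [ord_le_iff x hUb, neg_neg]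
  exact hRle

end Fermat.Agent.S18.H573
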