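import Mathlib
import Fermat.Prelude.Def_AlgebraicCurve_DivisorClassGroup
import Fermat.Agent.S18.H573.Local

/-!
# S18 endgame (helper573): the abstract theorem

Inputs: reduction data `RD` (from the hypothesis `h` of S18), Riemann's inequality `G1` on `F`,
a reduced non-special effective divisor `G2` of the same degree `g` on `Fk` (avoiding any finite
set), local coordinates `hU` away from a finite set, infinitely many places of `Fk`.
Output: a degree-zero divisor `D₀` with `m • D₀` principal (`m` invertible in `k`) and principal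
reduction is principal.
-/

set_option autoImplicit false

noncomputable section

namespace Fermat.Agent.S18.H573

open AlgebraicCurve IsDedekindDomain WithZero

variable {K : Type*} [Field K] {A : ValuationSubring K} {k : Type*} [Field k]
    {π : A →+* k} {F : Type*} [Field F] [Algebra K F] {Fk : Type*} [Field Fk] [Algebra k Fk]
    {r : Place K F → Place k Fk}

theorem ord_const_mul (P : Place K F) {c : K} (hc : c ≠ 0) {f : F} (hf : f ≠ 0) :
    P.ord (algebraMap K F c * f) = P.ord f := by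
  rw [P.ord_mul (by simpa using hc) hf, ord_algebraMap, zero_add]

theorem val_const_mul (P : Place K F) {c : K} (hc : c ≠ 0) (f : F) :
    P.adicValuation (algebraMap K F c * f) = P.adicValuation f := by
  rw [map_mul, val_algebraMap P hc, one_mul]

theorem ord_pow_nat (P : Place K F) (f : F) (m : ℕ) : P.ord (f ^ m) = m * P.ord f := by
  have := P.ord_zpow f (m : ℤ)
  rwa [zpow_natCast] at this

theorem endgame (RD : RedData A π F Fk r) [HasPrincipalDivisors K F]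
    (hdeg : ∀ P, (r P).deg = P.deg)
    (hF1 : ∀ P : Place K F, P.deg = 1)
    (g : ℕ)
    (G1 : ∀ D : Divisor K F, (g : ℤ) ≤ Divisor.degree D →
      ∃ f : F, f ≠ 0 ∧ ∀ P, 0 ≤ P.ord f + D P)
    (G2 : ∀ S : Finset (Place k Fk), ∃ T : Finset (Place k Fk), Disjoint T S ∧
        (∑ x ∈ T, (x.deg : ℤ)) = g ∧
        ∀ fb : Fk, fb ≠ 0 → (∀ x, x ∉ T → 0 ≤ x.ord fb) → (∀ x ∈ T, -1 ≤ x.ord fb) →
          ∃ a : k, fb = algebraMap k Fk a)
    (hU : ∃ S₀ : Finset (Place k Fk), ∀ x, x ∉ S₀ →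
        ∃ (t : F) (tb : Fk), RD.Red t tb ∧ x.ord tb = 1 ∧ ∀ P, r P = x → 0 ≤ P.ord t)
    (hInf : ∀ S : Finset (Place k Fk), ∃ x, x ∉ S)
    (m : ℕ) (hm : (m : k) ≠ 0)
    (D₀ : Divisor K F) (hD₀ : Divisor.degree D₀ = 0)
    (hmD : Divisor.IsPrincipal (m • D₀))
    (hrD : Divisor.IsPrincipal (Finsupp.mapDomain r D₀)) :
    Divisor.IsPrincipal D₀ := by
  classical
  have hm0 : (m : ℤ) ≠ 0 := by
    intro h
    have : m = 0 := by exact_mod_cast h
    rw [this] at hm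
    exact hm (by simp)
  obtain ⟨S₀, hS₀⟩ := hU
  -- regularity in valuation form
  have hS₀' : ∀ x, x ∉ S₀ → ∃ (t : F) (tb : Fk), RD.Red t tb ∧ x.ord tb = 1 ∧
      ∀ P, r P = x → P.adicValuation t ≤ 1 := by
    intro x hx
    obtain ⟨t, tb, ht, htb, hreg⟩ := hS₀ x hx
    have htb0 : tb ≠ 0 := by
      rintro rfl
      simp at htb
    have ht0 := RD.ne_zero_of_red ht htb0
    exact ⟨t, tb, ht, htb, fun P hP => (ord_nonneg_iff P ht0).mp (hreg P hP)⟩
  obtain ⟨xs, hxs⟩ := hInf S₀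
  obtain ⟨T, hTdisj, hTdeg, hTconst⟩ := G2 (insert xs S₀)
  have hxsT : xs ∉ T := fun h =>
    Finset.disjoint_left.mp hTdisj h (Finset.mem_insert_self xs S₀)
  have hTS₀ : ∀ x ∈ T, x ∉ S₀ := fun x hx h =>
    Finset.disjoint_left.mp hTdisj hx (Finset.mem_insert_of_mem h)
  -- base point
  obtain ⟨ts, tsb, hts, htsb, hregs⟩ := hS₀' xs hxs
  obtain ⟨Ps, hPs, -, -⟩ := RD.exists_simple_zero hts xs htsb hregs
  have : Nonempty (Place K F) := ⟨Ps⟩
  -- local coordinates on T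
  have hloc : ∀ x : Place k Fk, x ∈ T → ∃ (t : F) (tb : Fk) (Q : Place K F),
      RD.Red t tb ∧ x.ord tb = 1 ∧ (∀ P, r P = x → P.adicValuation t ≤ 1) ∧
        r Q = x ∧ Q.ord t = 1 := by
    intro x hx
    obtain ⟨t, tb, ht, htb, hreg⟩ := hS₀' x (hTS₀ x hx)
    obtain ⟨Q, hQ, hQt, -⟩ := RD.exists_simple_zero ht x htb hreg
    exact ⟨t, tb, Q, ht, htb, hreg, hQ, hQt⟩
  choose! t tb Q ht htb hreg hQ hQt using hloc
  -- the divisor E₀
  set E₀ : Divisor K F := ∑ x ∈ T, Finsupp.single (Q x) (1 : ℤ) with hE₀def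
  have hE₀apply : ∀ P, E₀ P = ∑ x ∈ T, if Q x = P then (1 : ℤ) else 0 := by
    intro P
    rw [hE₀def, Finsupp.finsetSum_apply]
    refine Finset.sum_congr rfl fun x _ => ?_
    rw [Finsupp.single_apply]
  have hE₀nn : ∀ P, 0 ≤ E₀ P := by
    intro P
    rw [hE₀apply]
    refine Finset.sum_nonneg fun x _ => ?_
    split_ifs <;> norm_num
  have hE₀Q : ∀ x ∈ T, E₀ (Q x) = 1 := by
    intro x hx
    rw [hE₀apply, Finset.sum_eq_single_of_mem x hx]
    · rw [if_pos rfl]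
    · intro y hy hne
      rw [if_neg]
      intro h
      apply hne
      rw [← hQ y hy, h, hQ x hx]
  have hE₀other : ∀ P, (r P ∈ T → P ≠ Q (r P)) → E₀ P = 0 := by
    intro P hP
    rw [hE₀apply]
    refine Finset.sum_eq_zero fun y hy => ?_
    rw [if_neg]
    intro h
    have hry : r P = y := by rw [← h, hQ y hy]
    exact hP (hry ▸ hy) (by rw [hry, h])
  have hE₀map : ∀ y, Finsupp.mapDomain r E₀ y = if y ∈ T then 1 else 0 := by
    intro y
    rw [hE₀def, Finsupp.mapDomain_finsetSum, Finsupp.finsetSum_apply]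
    have : ∀ x ∈ T, (Finsupp.mapDomain r (Finsupp.single (Q x) (1 : ℤ))) y
        = if x = y then 1 else 0 := by
      intro x hx
      rw [Finsupp.mapDomain_single, Finsupp.single_apply, hQ x hx]
    rw [Finset.sum_congr rfl this, Finset.sum_ite_eq' T y]
  have hE₀deg : Divisor.degree E₀ = g := by
    rw [hE₀def, map_sum, ← hTdeg]
    refine Finset.sum_congr rfl fun x hx => ?_
    rw [Divisor.degree_single, one_mul, ← hdeg (Q x), hQ x hx]
  -- Step 1: Riemann's inequality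
  obtain ⟨f₁', hf₁'0, hf₁'⟩ := G1 (D₀ + E₀) (by rw [map_add, hD₀, hE₀deg, zero_add])
  obtain ⟨c₁, f₁, f₁b, hc₁, hf₁, hf₁b, rfl⟩ := RD.normal f₁' hf₁'0
  have hf₁0 := RD.ne_zero_of_red hf₁ hf₁b
  obtain ⟨Df₁, hDf₁⟩ := RedData.exists_div (K := K) f₁ hf₁0
  set E₁ : Divisor K F := Df₁ + D₀ + E₀ with hE₁def
  have hE₁apply : ∀ P, E₁ P = P.ord f₁ + D₀ P + E₀ P := by
    intro P
    rw [hE₁def, Finsupp.add_apply, Finsupp.add_apply, hDf₁]
  have hE₁nn : ∀ P, 0 ≤ E₁ P := by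
    intro P
    have := hf₁' P
    rw [ord_const_mul P hc₁ hf₁0, Finsupp.add_apply] at this
    rw [hE₁apply]
    linarith
  obtain ⟨gb, hgb0, hgb⟩ := hrD
  have hfg0 : f₁b * gb ≠ 0 := mul_ne_zero hf₁b hgb0
  have hmapE₁ : ∀ y, Finsupp.mapDomain r E₁ y = y.ord (f₁b * gb) + (if y ∈ T then 1 else 0) := by
    intro y
    rw [hE₁def, Finsupp.mapDomain_add, Finsupp.mapDomain_add, Finsupp.add_apply,
      Finsupp.add_apply, RD.push hf₁ hf₁b Df₁ hDf₁ y, hgb y, hE₀map y, y.ord_mul hf₁b hgb0]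
  have hmapE₁nn : ∀ y, 0 ≤ Finsupp.mapDomain r E₁ y := fun y =>
    mapDomain_nonneg_of r E₁ y fun P _ => hE₁nn P
  obtain ⟨a₁, ha₁⟩ := hTconst (f₁b * gb) hfg0
    (fun y hy => by
      have := hmapE₁nn y
      rw [hmapE₁, if_neg hy, add_zero] at this
      exact this)
    (fun y hy => by
      have := hmapE₁nn y
      rw [hmapE₁, if_pos hy] at this
      linarith)
  have hord0 : ∀ y : Place k Fk, y.ord (f₁b * gb) = 0 := by
    intro y
    rw [ha₁]
    exact ord_algebraMap y a₁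
  have hmapE₁' : ∀ y, Finsupp.mapDomain r E₁ y = if y ∈ T then 1 else 0 := by
    intro y
    rw [hmapE₁, hord0, zero_add]
  have hE₁out : ∀ P, r P ∉ T → E₁ P = 0 := by
    intro P hP
    refine eq_zero_of_mapDomain_le_zero r E₁ (r P) (fun P' _ => hE₁nn P') ?_ rfl
    rw [hmapE₁', if_neg hP]
  have hE₁in : ∀ x ∈ T, ∃ P', r P' = x ∧ E₁ P' = 1 ∧ ∀ P, r P = x → P ≠ P' → E₁ P = 0 := by
    intro x hx
    refine exists_unique_of_mapDomain_eq_one r E₁ x (fun P' _ => hE₁nn P') ?_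
    rw [hmapE₁', if_pos hx]
  -- Step 2: the function Y
  obtain ⟨f₀, hf₀0, hf₀⟩ := hmD
  have hY₀0 : f₁ ^ m * f₀ ≠ 0 := mul_ne_zero (pow_ne_zero _ hf₁0) hf₀0
  have hordY₀ : ∀ P, P.ord (f₁ ^ m * f₀) = m * (E₁ P - E₀ P) := by
    intro P
    rw [P.ord_mul (pow_ne_zero _ hf₁0) hf₀0, ord_pow_nat, ← hf₀ P, Finsupp.smul_apply,
      nsmul_eq_mul, hE₁apply]
    ring
  obtain ⟨c₀, Y₁, Y₁b, hc₀, hY₁, hY₁b, hY₀eq⟩ := RD.normal _ hY₀0
  have hY₁0 := RD.ne_zero_of_red hY₁ hY₁b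
  have hordY₁ : ∀ P, P.ord Y₁ = m * (E₁ P - E₀ P) := by
    intro P
    rw [← hordY₀ P, hY₀eq, ord_const_mul P hc₀ hY₁0]
  obtain ⟨DY, hDY⟩ := RedData.exists_div (K := K) Y₁ hY₁0
  have hDYeq : DY = m • (E₁ - E₀) := by
    ext P
    rw [hDY, hordY₁, Finsupp.smul_apply, Finsupp.sub_apply, nsmul_eq_mul]
  have hordY₁b : ∀ y : Place k Fk, y.ord Y₁b = 0 := by
    intro y
    rw [← RD.push hY₁ hY₁b DY hDY y, hDYeq, Finsupp.mapDomain_smul, Finsupp.mapDomain_sub,
      Finsupp.smul_apply, Finsupp.sub_apply, hmapE₁', hE₀map, sub_self, smul_zero]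
  obtain ⟨a₂, ha₂⟩ := hTconst Y₁b hY₁b (fun y _ => by rw [hordY₁b])
    (fun y _ => by rw [hordY₁b]; norm_num)
  have ha₂0 : a₂ ≠ 0 := by
    rintro rfl
    rw [map_zero] at ha₂
    exact hY₁b ha₂
  obtain ⟨a₂', ha₂'⟩ := RD.π_surj a₂
  have ha₂u : IsUnit a₂' := by
    by_contra h
    exact ha₂0 (ha₂' ▸ (RD.π_ker a₂').mpr h)
  obtain ⟨u, rfl⟩ := ha₂u
  have hu0 : (((↑u⁻¹ : A) : K)) ≠ 0 := by
    intro h
    have h1 : ((↑u⁻¹ : A)) = 0 := Subtype.ext h
    exact (Units.ne_zero u⁻¹) h1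
  set Y₂ : F := algebraMap K F ((↑u⁻¹ : A) : K) * Y₁ with hY₂def
  have hY₂ : RD.Red Y₂ 1 := by
    have := RD.red_mul (RD.red_const (↑u⁻¹ : A)) hY₁
    rwa [ha₂, ← map_mul, ← ha₂', ← map_mul, Units.inv_mul, map_one, map_one] at this
  have hY₂0 : Y₂ ≠ 0 := RD.ne_zero_of_red hY₂ one_ne_zero
  have hordY₂ : ∀ P, P.ord Y₂ = m * (E₁ P - E₀ P) := by
    intro P
    rw [hY₂def, ord_const_mul P hu0 hY₁0, hordY₁]
  -- Step 3: normalisation at the base point
  have hE₀out : ∀ P, r P ∉ T → E₀ P = 0 := fun P hP => hE₀other P fun h => absurd h hP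
  have hvalY₂s : ∀ P, r P = xs → P.adicValuation Y₂ = 1 := by
    intro P hP
    have hPT : r P ∉ T := by rw [hP]; exact hxsT
    rw [val_eq_exp_neg_ord P hY₂0, hordY₂, hE₁out P hPT, hE₀out P hPT, sub_self, mul_zero,
      neg_zero, exp_zero]
  obtain ⟨cs, hcs⟩ := exists_val_sub_lt_one Ps (hF1 Ps) (hvalY₂s Ps hPs).le
  obtain ⟨hcsA, hcsx⟩ := RD.value_lemma hY₂ xs (fun P hP => (hvalY₂s P hP).le) hPs hcs
  have hπcs : π ⟨cs, hcsA⟩ = 1 := by
    by_contra hne
    have h1 : (1 : Fk) - algebraMap k Fk (π ⟨cs, hcsA⟩) = algebraMap k Fk (1 - π ⟨cs, hcsA⟩) := by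
      rw [map_sub, map_one]
    rw [h1, val_algebraMap xs (sub_ne_zero.mpr (Ne.symm hne))] at hcsx
    exact lt_irrefl _ hcsx
  have hcsinv : cs⁻¹ ∈ A := RD.inv_mem_of_π_ne_zero hcsA (by rw [hπcs]; exact one_ne_zero)
  have hcs0 : cs ≠ 0 := by
    rintro rfl
    have : (⟨0, hcsA⟩ : A) = 0 := rfl
    rw [this, map_zero] at hπcs
    exact zero_ne_one hπcs
  have hπcsinv : π ⟨cs⁻¹, hcsinv⟩ = 1 := by
    have h1 : (⟨cs⁻¹, hcsinv⟩ : A) * ⟨cs, hcsA⟩ = 1 := by
      ext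
      simp [hcs0]
    have := congrArg π h1
    rwa [map_mul, hπcs, mul_one, map_one] at this
  set Y : F := algebraMap K F cs⁻¹ * Y₂ with hYdef
  have hY : RD.Red Y 1 := by
    have := RD.red_mul (RD.red_constK hcsinv) hY₂
    rwa [hπcsinv, map_one, one_mul] at this
  have hY0 : Y ≠ 0 := RD.ne_zero_of_red hY one_ne_zero
  have hordY : ∀ P, P.ord Y = m * (E₁ P - E₀ P) := by
    intro P
    rw [hYdef, ord_const_mul P (inv_ne_zero hcs0) hY₂0, hordY₂]
  have hYs : Ps.adicValuation (Y - 1) < 1 := by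
    have : Y - 1 = algebraMap K F cs⁻¹ * (Y₂ - algebraMap K F cs) := by
      rw [hYdef, mul_sub, ← map_mul, inv_mul_cancel₀ hcs0, map_one]
    rw [this, val_const_mul Ps (inv_ne_zero hcs0)]
    exact hcs
  have hvalYout : ∀ P, r P ∉ T → P.adicValuation Y = 1 := by
    intro P hPT
    rw [val_eq_exp_neg_ord P hY0, hordY, hE₁out P hPT, hE₀out P hPT, sub_self, mul_zero,
      neg_zero, exp_zero]
  -- Step 4
  by_cases hY1 : Y = 1
  · refine ⟨f₁⁻¹, inv_ne_zero hf₁0, fun P => ?_⟩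
    have h1 := hordY P
    rw [hY1, Place.ord_one] at h1
    have h2 : E₁ P - E₀ P = 0 := by
      rcases mul_eq_zero.mp h1.symm with h | h
      · exact absurd h hm0
      · exact h
    rw [hE₁apply] at h2
    rw [P.ord_inv]
    linarith
  · exfalso
    have hYm1 : RD.Red (Y - 1) 0 := by
      have := RD.red_sub hY RD.red_one
      rwa [sub_self] at this
    obtain ⟨b, hbA, U, Ub, hb0, -, hU, hUb, hYU⟩ :=
      RD.exists_small_of_red_zero (sub_ne_zero.mpr hY1) hYm1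
    have hUeq : U = algebraMap K F b⁻¹ * (Y - 1) := by
      rw [hYU, ← mul_assoc, ← map_mul, inv_mul_cancel₀ hb0, map_one, one_mul]
    have hvalU : ∀ P : Place K F, P.adicValuation U = P.adicValuation (Y - 1) := by
      intro P
      rw [hUeq, val_const_mul P (inv_ne_zero hb0)]
    have hregU : ∀ P, r P ∉ T → P.adicValuation U ≤ 1 := by
      intro P hPT
      rw [hvalU]
      exact Valuation.map_sub_le _ (hvalYout P hPT).le (by rw [map_one])
    have hclaim_out : ∀ y, y ∉ T → 0 ≤ y.ord Ub := by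
      intro y hy
      rw [ord_nonneg_iff y hUb]
      exact RD.val_red_le_one hU y fun P hP => hregU P (by rw [hP]; exact hy)
    have hclaim_in : ∀ y ∈ T, -1 ≤ y.ord Ub := by
      intro y hy
      obtain ⟨P', hP', hP'1, hP'0⟩ := hE₁in y hy
      refine local_bound RD hF1 m hm y (ht y hy) (htb y hy) (hreg y hy) (hQ y hy) (hQt y hy) hP'
        hY (fun P => E₁ P) (fun P => E₀ P) hP'1 hP'0 (hE₀Q y hy) ?_ (fun P _ => hordY P) hb0 hU
        hUb hYU
      intro P hP hne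
      refine hE₀other P fun _ => ?_
      rw [hP]
      exact hne
    obtain ⟨a₃, ha₃⟩ := hTconst Ub hUb hclaim_out hclaim_in
    have ha₃0 : a₃ ≠ 0 := by
      rintro rfl
      rw [map_zero] at ha₃
      exact hUb ha₃
    have hlt : xs.adicValuation Ub < 1 := by
      refine RD.val_red_lt_one hU xs (fun P hP => hregU P (by rw [hP]; exact hxsT)) hPs ?_
      rw [hvalU]
      exact hYs
    rw [ha₃, val_algebraMap xs ha₃0] at hlt
    exact lt_irrefl _ hlt

end Fermat.Agent.S18.H573
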