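import Mathlib
import Fermat.Prelude.Def_ModularCurve_ReductionModL
import Fermat.Agent.S18.H573.Endgame

/-!
# S18 endgame (helper573): the reduction data of the hypothesis `h`

For intermediate fields `F ⊆ L((q))`, `Fk ⊆ k((q))`, a valuation subring `A ⊆ L` with residue map
`π : A → k` and a place map `r` satisfying (ii) and (iii) of `ReductionInputsAlong`, the relation
`IsRed f fb` ("`f = y₁ / y₂` with `y₁, y₂ ∈ A((q))`, reductions in `Fk`, `ȳ₂ ≠ 0`,
`fb = ȳ₁ / ȳ₂`") is a `RedData`.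
-/

set_option autoImplicit false

noncomputable section

namespace Fermat.Agent.S18.H573

open AlgebraicCurve ModularCurve HahnSeries

variable {L : Type*} [Field L] {A : ValuationSubring L} {k : Type*} [Field k] (π : A →+* k)
  (F : IntermediateField L (LaurentSeries L)) (Fk : IntermediateField k (LaurentSeries k))

theorem coeffMap_subtype_injective : Function.Injective (coeffMap (A.subtype)) := by
  intro x y h
  ext n
  have := congrArg (fun z => z.coeff n) h
  simp only [coeffMap_coeff] at this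
  exact this

/-- `f` is a quotient of integral `q`-series and `fb` is the quotient of their reductions. -/
def IsRed (f : F) (fb : Fk) : Prop :=
  ∃ (y₁ y₂ : LaurentSeries A), coeffMap A.subtype y₁ ∈ F ∧ coeffMap A.subtype y₂ ∈ F ∧
    coeffMap π y₁ ∈ Fk ∧ coeffMap π y₂ ∈ Fk ∧ coeffMap π y₂ ≠ 0 ∧
    (f : LaurentSeries L) * coeffMap A.subtype y₂ = coeffMap A.subtype y₁ ∧
    (fb : LaurentSeries k) * coeffMap π y₂ = coeffMap π y₁

variable {π F Fk}

theorem IsRed.add {f g : F} {fb gb : Fk} (hf : IsRed π F Fk f fb) (hg : IsRed π F Fk g gb) :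
    IsRed π F Fk (f + g) (fb + gb) := by
  obtain ⟨y₁, y₂, hy₁, hy₂, ky₁, ky₂, hy0, hfy, hfby⟩ := hf
  obtain ⟨z₁, z₂, hz₁, hz₂, kz₁, kz₂, hz0, hgz, hgbz⟩ := hg
  refine ⟨y₁ * z₂ + z₁ * y₂, y₂ * z₂, ?_, ?_, ?_, ?_, ?_, ?_, ?_⟩
  · rw [map_add, map_mul, map_mul]
    exact add_mem (mul_mem hy₁ hz₂) (mul_mem hz₁ hy₂)
  · rw [map_mul]; exact mul_mem hy₂ hz₂
  · rw [map_add, map_mul, map_mul]
    exact add_mem (mul_mem ky₁ kz₂) (mul_mem kz₁ ky₂)
  · rw [map_mul]; exact mul_mem ky₂ kz₂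
  · rw [map_mul]; exact mul_ne_zero hy0 hz0
  · rw [map_add, map_mul, map_mul, map_mul, ← hfy, ← hgz]
    push_cast
    ring
  · rw [map_add, map_mul, map_mul, map_mul, ← hfby, ← hgbz]
    push_cast
    ring

theorem IsRed.mul {f g : F} {fb gb : Fk} (hf : IsRed π F Fk f fb) (hg : IsRed π F Fk g gb) :
    IsRed π F Fk (f * g) (fb * gb) := by
  obtain ⟨y₁, y₂, hy₁, hy₂, ky₁, ky₂, hy0, hfy, hfby⟩ := hf
  obtain ⟨z₁, z₂, hz₁, hz₂, kz₁, kz₂, hz0, hgz, hgbz⟩ := hg
  refine ⟨y₁ * z₁, y₂ * z₂, ?_, ?_, ?_, ?_, ?_, ?_, ?_⟩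
  · rw [map_mul]; exact mul_mem hy₁ hz₁
  · rw [map_mul]; exact mul_mem hy₂ hz₂
  · rw [map_mul]; exact mul_mem ky₁ kz₁
  · rw [map_mul]; exact mul_mem ky₂ kz₂
  · rw [map_mul]; exact mul_ne_zero hy0 hz0
  · rw [map_mul, map_mul, ← hfy, ← hgz]
    push_cast
    ring
  · rw [map_mul, map_mul, ← hfby, ← hgbz]
    push_cast
    ring

theorem coeffMap_single_zero_eq_algebraMap (c : L) :
    (HahnSeries.single (0 : ℤ) c : LaurentSeries L) = algebraMap L (LaurentSeries L) c :=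
  (algebraMap_laurentSeries_eq_single L c).symm

theorem IsRed.const (a : A) :
    IsRed π F Fk (algebraMap L F (a : L)) (algebraMap k Fk (π a)) := by
  refine ⟨HahnSeries.single 0 a, 1, ?_, ?_, ?_, ?_, ?_, ?_, ?_⟩
  · rw [coeffMap_single]
    have : (HahnSeries.single (0 : ℤ) (A.subtype a) : LaurentSeries L)
        = algebraMap L (LaurentSeries L) (a : L) :=
      (algebraMap_laurentSeries_eq_single L (a : L)).symm
    rw [this]
    exact F.algebraMap_mem _
  · rw [map_one]; exact one_mem _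
  · rw [coeffMap_single]
    have : (HahnSeries.single (0 : ℤ) (π a) : LaurentSeries k)
        = algebraMap k (LaurentSeries k) (π a) :=
      (algebraMap_laurentSeries_eq_single k (π a)).symm
    rw [this]
    exact Fk.algebraMap_mem _
  · rw [map_one]; exact one_mem _
  · rw [map_one]; exact one_ne_zero
  · rw [map_one, mul_one, coeffMap_single]
    rw [← algebraMap_laurentSeries_eq_single]
    rfl
  · rw [map_one, mul_one, coeffMap_single]
    rw [← algebraMap_laurentSeries_eq_single]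
    rfl

theorem IsRed.unique {f : F} {fb fb' : Fk} (h : IsRed π F Fk f fb) (h' : IsRed π F Fk f fb') :
    fb = fb' := by
  obtain ⟨y₁, y₂, -, -, -, -, hy0, hfy, hfby⟩ := h
  obtain ⟨z₁, z₂, -, -, -, -, hz0, hfz, hfbz⟩ := h'
  have h1 : y₁ * z₂ = z₁ * y₂ := by
    apply coeffMap_subtype_injective (A := A)
    rw [map_mul, map_mul, ← hfy, ← hfz]
    ring
  have h2 : coeffMap π y₁ * coeffMap π z₂ = coeffMap π z₁ * coeffMap π y₂ := by
    rw [← map_mul, ← map_mul, h1]
  rw [← hfby, ← hfbz] at h2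
  have h3 : ((fb : LaurentSeries k) - fb') * (coeffMap π y₂ * coeffMap π z₂) = 0 := by
    linear_combination h2
  rcases mul_eq_zero.mp h3 with h4 | h4
  · exact Subtype.ext (sub_eq_zero.mp h4)
  · exact absurd h4 (mul_ne_zero hy0 hz0)

theorem IsRed.inv {f : F} {fb : Fk} (h : IsRed π F Fk f fb) (hfb : fb ≠ 0) :
    IsRed π F Fk f⁻¹ fb⁻¹ := by
  obtain ⟨y₁, y₂, hy₁, hy₂, ky₁, ky₂, hy0, hfy, hfby⟩ := h
  have hfbL : (fb : LaurentSeries k) ≠ 0 := fun h0 => hfb (Subtype.ext h0)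
  have ky10 : coeffMap π y₁ ≠ 0 := by
    rw [← hfby]; exact mul_ne_zero hfbL hy0
  have hf0 : f ≠ 0 := by
    rintro rfl
    apply ky10
    have : coeffMap A.subtype y₁ = 0 := by
      rw [← hfy]; simp
    have : y₁ = 0 := coeffMap_subtype_injective (A := A) (by rw [this, map_zero])
    rw [this, map_zero]
  have hfL : (f : LaurentSeries L) ≠ 0 := fun h0 => hf0 (Subtype.ext h0)
  refine ⟨y₂, y₁, hy₂, hy₁, ky₂, ky₁, ky10, ?_, ?_⟩
  · rw [← hfy]
    push_cast
    field_simp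
  · rw [← hfby]
    push_cast
    field_simp

section Push

variable [HasPrincipalDivisors L F] {r : Place L F → Place k Fk}

/-- hypothesis (ii) for the pair `(F, Fk)` -/
def HypII (π : A →+* k) (F : IntermediateField L (LaurentSeries L))
    (Fk : IntermediateField k (LaurentSeries k)) (r : Place L F → Place k Fk) : Prop :=
  ∀ (y : LaurentSeries A) (hy : coeffMap A.subtype y ∈ F) (hyk : coeffMap π y ∈ Fk),
    coeffMap π y ≠ 0 → ∀ D : Divisor L F, (∀ P, D P = P.ord (⟨coeffMap A.subtype y, hy⟩ : F)) →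
      ∀ Q, Finsupp.mapDomain r D Q = Q.ord (⟨coeffMap π y, hyk⟩ : Fk)

/-- the generating set of hypothesis (iii) for the pair `(F, Fk)` -/
def intDivs (π : A →+* k) (F : IntermediateField L (LaurentSeries L))
    (Fk : IntermediateField k (LaurentSeries k)) : Set (Divisor L F) :=
  {D | ∃ (y : LaurentSeries A) (hy : coeffMap A.subtype y ∈ F),
      coeffMap π y ∈ Fk ∧ coeffMap π y ≠ 0 ∧
        ∀ P, D P = P.ord (⟨coeffMap A.subtype y, hy⟩ : F)}

theorem IsRed.push (hii : HypII π F Fk r) {f : F} {fb : Fk} (h : IsRed π F Fk f fb)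
    (hfb : fb ≠ 0) (D : Divisor L F) (hD : ∀ P, D P = P.ord f) (Q : Place k Fk) :
    Finsupp.mapDomain r D Q = Q.ord fb := by
  obtain ⟨y₁, y₂, hy₁, hy₂, ky₁, ky₂, hy0, hfy, hfby⟩ := h
  have hfbL : (fb : LaurentSeries k) ≠ 0 := fun h0 => hfb (Subtype.ext h0)
  have ky10 : coeffMap π y₁ ≠ 0 := by
    rw [← hfby]; exact mul_ne_zero hfbL hy0
  have hy20 : (⟨coeffMap A.subtype y₂, hy₂⟩ : F) ≠ 0 := by
    intro h0
    have h1 : coeffMap A.subtype y₂ = 0 := congrArg Subtype.val h0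
    have : y₂ = 0 := coeffMap_subtype_injective (A := A) (by rw [h1, map_zero])
    exact hy0 (by rw [this, map_zero])
  have hy10 : (⟨coeffMap A.subtype y₁, hy₁⟩ : F) ≠ 0 := by
    intro h0
    have h1 : coeffMap A.subtype y₁ = 0 := congrArg Subtype.val h0
    have : y₁ = 0 := coeffMap_subtype_injective (A := A) (by rw [h1, map_zero])
    exact ky10 (by rw [this, map_zero])
  have hfeq : f * (⟨coeffMap A.subtype y₂, hy₂⟩ : F) = ⟨coeffMap A.subtype y₁, hy₁⟩ :=
    Subtype.ext hfy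
  have hfbeq : fb * (⟨coeffMap π y₂, ky₂⟩ : Fk) = ⟨coeffMap π y₁, ky₁⟩ := Subtype.ext hfby
  have hk20 : (⟨coeffMap π y₂, ky₂⟩ : Fk) ≠ 0 := fun h0 => hy0 (congrArg Subtype.val h0)
  have hf0 : f ≠ 0 := by
    rintro rfl
    rw [zero_mul] at hfeq
    exact hy10 hfeq.symm
  obtain ⟨D₁, hD₁⟩ := RedData.exists_div (K := L) _ hy10
  obtain ⟨D₂, hD₂⟩ := RedData.exists_div (K := L) _ hy20
  have hDeq : D = D₁ - D₂ := by
    ext P
    rw [Finsupp.sub_apply, hD, hD₁, hD₂, ← hfeq, P.ord_mul hf0 hy20]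
    ring
  rw [hDeq, Finsupp.mapDomain_sub, Finsupp.sub_apply, hii y₁ hy₁ ky₁ ky10 D₁ hD₁ Q,
    hii y₂ hy₂ ky₂ hy0 D₂ hD₂ Q, ← hfbeq, Q.ord_mul hfb hk20]
  ring

omit [HasPrincipalDivisors L F] in
theorem exists_isRed_of_mem_closure {D : Divisor L F}
    (hD : D ∈ AddSubgroup.closure (intDivs π F Fk)) :
    ∃ (u : F) (ub : Fk), IsRed π F Fk u ub ∧ ub ≠ 0 ∧ u ≠ 0 ∧ ∀ P, D P = P.ord u := by
  induction hD using AddSubgroup.closure_induction with
  | mem E hE =>
    obtain ⟨y, hy, hyk, hy0, hE⟩ := hE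
    refine ⟨⟨coeffMap A.subtype y, hy⟩, ⟨coeffMap π y, hyk⟩, ?_, ?_, ?_, hE⟩
    · exact ⟨y, 1, hy, by rw [map_one]; exact one_mem _, hyk, by rw [map_one]; exact one_mem _,
        by rw [map_one]; exact one_ne_zero, by rw [map_one, mul_one], by rw [map_one, mul_one]⟩
    · exact fun h0 => hy0 (congrArg Subtype.val h0)
    · intro h0
      have h1 : coeffMap A.subtype y = 0 := congrArg Subtype.val h0
      have : y = 0 := coeffMap_subtype_injective (A := A) (by rw [h1, map_zero])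
      exact hy0 (by rw [this, map_zero])
  | zero =>
    refine ⟨1, 1, ?_, one_ne_zero, one_ne_zero, fun P => by simp⟩
    have := IsRed.const (π := π) (F := F) (Fk := Fk) (1 : A)
    simpa using this
  | add E E' _ _ hE hE' =>
    obtain ⟨u, ub, hu, hub, hu0, hE⟩ := hE
    obtain ⟨u', ub', hu', hub', hu0', hE'⟩ := hE'
    refine ⟨u * u', ub * ub', hu.mul hu', mul_ne_zero hub hub', mul_ne_zero hu0 hu0', fun P => ?_⟩
    rw [Finsupp.add_apply, hE, hE', P.ord_mul hu0 hu0']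
  | neg E _ hE =>
    obtain ⟨u, ub, hu, hub, hu0, hE⟩ := hE
    refine ⟨u⁻¹, ub⁻¹, hu.inv hub, inv_ne_zero hub, inv_ne_zero hu0, fun P => ?_⟩
    rw [Finsupp.neg_apply, hE, P.ord_inv]

theorem IsRed.normal
    (hconst : ∀ u : F, u ≠ 0 → (∀ v : Place L F, v.ord u = 0) → ∃ c : L, u = algebraMap L F c)
    (hiii : Divisor.principal (K := L) (F := F) ≤ AddSubgroup.closure (intDivs π F Fk))
    (f : F) (hf : f ≠ 0) :
    ∃ (c : L) (u : F) (ub : Fk), c ≠ 0 ∧ IsRed π F Fk u ub ∧ ub ≠ 0 ∧ f = algebraMap L F c * u := by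
  obtain ⟨D, hD⟩ := RedData.exists_div (K := L) f hf
  have hDp : D ∈ Divisor.principal (K := L) (F := F) := ⟨f, hf, hD⟩
  obtain ⟨u, ub, hu, hub, hu0, hDu⟩ := exists_isRed_of_mem_closure (hiii hDp)
  have hq0 : f * u⁻¹ ≠ 0 := mul_ne_zero hf (inv_ne_zero hu0)
  obtain ⟨c, hc⟩ := hconst (f * u⁻¹) hq0 (fun v => by
    rw [v.ord_mul hf (inv_ne_zero hu0), v.ord_inv, ← hD, ← hDu]
    ring)
  refine ⟨c, u, ub, ?_, hu, hub, ?_⟩
  · rintro rfl
    rw [map_zero] at hc
    exact hq0 hc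
  · rw [← hc, mul_assoc, inv_mul_cancel₀ hu0, mul_one]

/-- The reduction data attached to a place map satisfying (ii) and (iii). -/
def redDataOf (hπs : Function.Surjective π) (hπk : ∀ a : A, π a = 0 ↔ ¬ IsUnit a)
    (hconst : ∀ u : F, u ≠ 0 → (∀ v : Place L F, v.ord u = 0) → ∃ c : L, u = algebraMap L F c)
    (hii : HypII π F Fk r)
    (hiii : Divisor.principal (K := L) (F := F) ≤ AddSubgroup.closure (intDivs π F Fk)) :
    RedData A π F Fk r where
  Red := IsRed π F Fk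
  π_surj := hπs
  π_ker := hπk
  red_add := IsRed.add
  red_mul := IsRed.mul
  red_const := IsRed.const
  red_unique := IsRed.unique
  red_inv := IsRed.inv
  push := fun h hfb D hD Q => IsRed.push hii h hfb D hD Q
  normal := IsRed.normal hconst hiii

end Push

end Fermat.Agent.S18.H573
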