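import Mathlib
import Fermat.Prelude.Def_ModularCurve_ReductionModL
import Fermat.Prelude.Def_FLTPrelim_Ramification
import Fermat.Agent.S18.H573.Inst

/-!
# S18 (helper573): the frozen statement from the Riemann-type inputs (Route RR / H, level `N`)

`s18_of_inputs` : the conclusion of the frozen statement S18 for `(N, ℓ, A, h, m)` from
* `HasPrincipalDivisors`, CONST_F, `deg P = 1` for the function field `F_N` over `ℚ̄`;
* `G1` : Riemann's inequality on `F_N` with constant `g`;
* `G2` : reduced non-special effective divisors of degree `g` on `F_{N,k}` avoiding any finite set;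
* `hU` : local coordinates outside a finite set (for every place reduction `r` as in `h`);
* `hInf` : `F_{N,k}` has infinitely many places.
No integral Riemann–Roch, no completions; `ℓ ∤ m` is used once (`m` is invertible in `k`).
-/

set_option autoImplicit false
set_option synthInstance.maxHeartbeats 400000

noncomputable section

namespace Fermat.Agent.S18.H573

open AlgebraicCurve ModularCurve HahnSeries IsLocalRing

/-- local coordinates outside a finite set -/
def LocalCoordInput {L : Type*} [Field L] {A : ValuationSubring L} {k : Type*} [Field k]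
    (π : A →+* k) (F : IntermediateField L (LaurentSeries L))
    (Fk : IntermediateField k (LaurentSeries k)) (r : Place L F → Place k Fk) : Prop :=
  ∃ S₀ : Finset (Place k Fk), ∀ x, x ∉ S₀ →
    ∃ (t : F) (tb : Fk), IsRed π F Fk t tb ∧ x.ord tb = 1 ∧ ∀ P, r P = x → 0 ≤ P.ord t

/-- Riemann's inequality with constant `g` -/
def RiemannInput (K F : Type*) [Field K] [Field F] [Algebra K F] (g : ℕ) : Prop :=
  ∀ D : Divisor K F, (g : ℤ) ≤ Divisor.degree D → ∃ f : F, f ≠ 0 ∧ ∀ P, 0 ≤ P.ord f + D P

/-- reduced non-special effective divisors of degree `g` avoiding any finite set -/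
def NonSpecialInput (k Fk : Type*) [Field k] [Field Fk] [Algebra k Fk] (g : ℕ) : Prop :=
  ∀ S : Finset (Place k Fk), ∃ T : Finset (Place k Fk), Disjoint T S ∧
    (∑ x ∈ T, (x.deg : ℤ)) = g ∧
    ∀ fb : Fk, fb ≠ 0 → (∀ x, x ∉ T → 0 ≤ x.ord fb) → (∀ x ∈ T, -1 ≤ x.ord fb) →
      ∃ a : k, fb = algebraMap k Fk a

theorem natCast_residue_ne_zero {L : Type*} [Field L] (A : ValuationSubring L) {ℓ : ℕ}
    (hℓ : ℓ.Prime) (hA : A.LiesOverPrime ℓ) {m : ℕ} (hm : ¬ ℓ ∣ m) :
    (m : ResidueField A) ≠ 0 := by
  intro h0
  have hℓA : (ℓ : L) ∈ A := by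
    have : ((ℓ : A) : L) = (ℓ : L) := by push_cast; rfl
    rw [← this]; exact (ℓ : A).2
  have hℓ0 : (ℓ : ResidueField A) = 0 := by
    have h1 : (residue A) (ℓ : A) = 0 := by
      rw [residue_eq_zero_iff, mem_maximalIdeal, mem_nonunits_iff]
      intro hu
      have hnu : (ℓ : L) ∈ A.nonunits := hA
      rw [ValuationSubring.mem_nonunits_iff_exists_mem_maximalIdeal] at hnu
      obtain ⟨ha, hmem⟩ := hnu
      rw [mem_maximalIdeal, mem_nonunits_iff] at hmem
      apply hmem
      have : (⟨(ℓ : L), ha⟩ : A) = (ℓ : A) := by ext; push_cast; rfl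
      rw [this]
      exact hu
    rwa [map_natCast] at h1
  have hcop : Nat.Coprime ℓ m := (Nat.Prime.coprime_iff_not_dvd hℓ).mpr hm
  have hic : IsCoprime (ℓ : ℤ) (m : ℤ) := Nat.isCoprime_iff_coprime.mpr hcop
  obtain ⟨a, b, hab⟩ := hic
  have := congrArg (fun n : ℤ => (n : ResidueField A)) hab
  simp only [Int.cast_add, Int.cast_mul, Int.cast_natCast, Int.cast_one] at this
  rw [hℓ0, h0, mul_zero, mul_zero, add_zero] at this
  exact zero_ne_one this

/-- **Divisor-level core at level `N`** from the inputs. -/
theorem divisorCore_of_inputs (N : ℕ) {ℓ : ℕ} [Fact ℓ.Prime]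
    (A : ValuationSubring (AlgebraicClosure ℚ)) (hA : A.LiesOverPrime ℓ)
    (m : ℕ) (hm : ¬ ℓ ∣ m)
    [HasPrincipalDivisors (AlgebraicClosure ℚ) (modularFunctionFieldBar N)]
    (hconst : ∀ u : modularFunctionFieldBar N, u ≠ 0 →
      (∀ v : Place (AlgebraicClosure ℚ) (modularFunctionFieldBar N), v.ord u = 0) →
        ∃ c : AlgebraicClosure ℚ, u = algebraMap (AlgebraicClosure ℚ) (modularFunctionFieldBar N) c)
    (hF1 : ∀ P : Place (AlgebraicClosure ℚ) (modularFunctionFieldBar N), P.deg = 1)
    (g : ℕ) (G1 : RiemannInput (AlgebraicClosure ℚ) (modularFunctionFieldBar N) g)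
    (G2 : NonSpecialInput (ResidueField A) (modularFunctionFieldFullC (ResidueField A) N) g)
    (hInf : ∀ S : Finset (Place (ResidueField A) (modularFunctionFieldFullC (ResidueField A) N)),
      ∃ x, x ∉ S)
    (r : Place (AlgebraicClosure ℚ) (modularFunctionFieldBar N) →
      Place (ResidueField A) (modularFunctionFieldFullC (ResidueField A) N))
    (hr : IsPlaceReductionModL A N r)
    (hgen : PrincipalGeneratedByIntegral A (residue A) N)
    (hU : LocalCoordInput (residue A) (modularFunctionFieldBar N)
      (modularFunctionFieldFullC (ResidueField A) N) r)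
    (D : Divisor (AlgebraicClosure ℚ) (modularFunctionFieldBar N))
    (hD : Divisor.degree D = 0) (hmD : Divisor.IsPrincipal (m • D))
    (hrD : Divisor.IsPrincipal (Finsupp.mapDomain r D)) :
    Divisor.IsPrincipal D := by
  have hπk : ∀ a : A, residue A a = 0 ↔ ¬ IsUnit a := fun a => by
    rw [residue_eq_zero_iff, mem_maximalIdeal, mem_nonunits_iff]
  let RD : RedData A (residue A) (modularFunctionFieldBar N)
      (modularFunctionFieldFullC (ResidueField A) N) r :=
    redDataOf (residue_surjective) hπk hconst hr.2 hgen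
  exact endgame RD hr.1 hF1 g G1 G2 hU hInf m
    (natCast_residue_ne_zero A (Fact.out : ℓ.Prime) hA hm) D hD hmD hrD

/-- **The frozen statement S18 from the inputs.** -/
theorem s18_of_inputs (N : ℕ) [NeZero N] {ℓ : ℕ} [Fact ℓ.Prime]
    (A : ValuationSubring (AlgebraicClosure ℚ)) (hA : A.LiesOverPrime ℓ)
    (h : ModularCurve.ReductionInputsModL A N) (m : ℕ) (hm : ¬ ℓ ∣ m)
    [HasPrincipalDivisors (AlgebraicClosure ℚ) (modularFunctionFieldBar N)]
    (hconst : ∀ u : modularFunctionFieldBar N, u ≠ 0 →
      (∀ v : Place (AlgebraicClosure ℚ) (modularFunctionFieldBar N), v.ord u = 0) →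
        ∃ c : AlgebraicClosure ℚ, u = algebraMap (AlgebraicClosure ℚ) (modularFunctionFieldBar N) c)
    (hF1 : ∀ P : Place (AlgebraicClosure ℚ) (modularFunctionFieldBar N), P.deg = 1)
    (g : ℕ) (G1 : RiemannInput (AlgebraicClosure ℚ) (modularFunctionFieldBar N) g)
    (G2 : NonSpecialInput (ResidueField A) (modularFunctionFieldFullC (ResidueField A) N) g)
    (hInf : ∀ S : Finset (Place (ResidueField A) (modularFunctionFieldFullC (ResidueField A) N)),
      ∃ x, x ∉ S)
    (hU : ∀ r : Place (AlgebraicClosure ℚ) (modularFunctionFieldBar N) →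
        Place (ResidueField A) (modularFunctionFieldFullC (ResidueField A) N),
      IsPlaceReductionModL A N r → PrincipalGeneratedByIntegral A (residue A) N →
      LocalCoordInput (residue A) (modularFunctionFieldBar N)
        (modularFunctionFieldFullC (ResidueField A) N) r)
    (z : ModularCurve.JZero N) (hmz : m • z = 0) (hz : ModularCurve.reductionModL A N z = 0) :
    z = 0 := by
  obtain ⟨D, rfl⟩ := Pic0.mk_surjective z
  have hr := isPlaceReductionModL_placeReductionModL h
  have hgen : PrincipalGeneratedByIntegral A (residue A) N := h.choose_spec.2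
  have h1 : Divisor.IsPrincipal
      (m • (D : Divisor (AlgebraicClosure ℚ) (modularFunctionFieldBar N))) := by
    have : (m • D : Divisor.degZero (K := AlgebraicClosure ℚ) (F := modularFunctionFieldBar N)) ∈
        (Divisor.principal (K := AlgebraicClosure ℚ) (F := modularFunctionFieldBar N)).addSubgroupOf
          (Divisor.degZero (K := AlgebraicClosure ℚ) (F := modularFunctionFieldBar N)) := by
      rw [← QuotientAddGroup.eq_zero_iff]
      exact hmz
    rw [AddSubgroup.mem_addSubgroupOf, AddSubgroupClass.coe_nsmul] at this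
    exact this
  have h2 : Divisor.IsPrincipal (Finsupp.mapDomain (placeReductionModL h)
      (D : Divisor (AlgebraicClosure ℚ) (modularFunctionFieldBar N))) := by
    rw [reductionModL_mk h D] at hz
    have : reductionDegZeroAlong (placeReductionModL h) hr.1 D ∈
        (Divisor.principal (K := ResidueField A)
            (F := modularFunctionFieldFullC (ResidueField A) N)).addSubgroupOf
          (Divisor.degZero (K := ResidueField A)
            (F := modularFunctionFieldFullC (ResidueField A) N)) := by
      rw [← QuotientAddGroup.eq_zero_iff]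
      exact hz
    rw [AddSubgroup.mem_addSubgroupOf, coe_reductionDegZeroAlong] at this
    exact this
  have h3 := divisorCore_of_inputs N A hA m hm hconst hF1 g G1 G2 hInf (placeReductionModL h) hr
    hgen (hU _ hr hgen) D (Divisor.mem_degZero.mp D.2) h1 h2
  have : D ∈ (Divisor.principal (K := AlgebraicClosure ℚ)
      (F := modularFunctionFieldBar N)).addSubgroupOf
      (Divisor.degZero (K := AlgebraicClosure ℚ) (F := modularFunctionFieldBar N)) := by
    rw [AddSubgroup.mem_addSubgroupOf]
    exact h3
  exact (QuotientAddGroup.eq_zero_iff _).mpr this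

end Fermat.Agent.S18.H573
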