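import Mathlib
import Fermat.Prelude.Def_ModularCurve_ReductionModL
import Fermat.Agent.S18.H573.Final

/-!
# S18 (helper573): the function-level CORE statement from a place map (any level, any fields)

`funCore_of_inputs` : for intermediate fields `F ⊆ L((q))`, `Fk ⊆ k((q))` and ANY place map `r`
satisfying (i), (ii), (iii) (e.g. the `r_M` of RIM at level `M`), plus the Riemann-type inputs:
two integral series `U₁, U₂` with the same nonzero reduction and `m ∣ div (U₁ / U₂)`
(`m` invertible in `k`) satisfy `U₁ = c · y ^ m · U₂`.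
This is `Fermat.Agent.S18.CoreStatement` of the row skeleton (origin/helper18 Spec.lean), unfolded,
for `F = modularFunctionFieldBar M`, `Fk = modularFunctionFieldFullC k M`, `π = residue A`.
-/

set_option autoImplicit false
set_option synthInstance.maxHeartbeats 400000
set_option maxHeartbeats 1600000

noncomputable section

namespace Fermat.Agent.S18.H573

open AlgebraicCurve ModularCurve HahnSeries

theorem funCore_of_inputs {L : Type*} [Field L] {A : ValuationSubring L} {k : Type*} [Field k]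
    (π : A →+* k) (hπs : Function.Surjective π) (hπk : ∀ a : A, π a = 0 ↔ ¬ IsUnit a)
    (F : IntermediateField L (LaurentSeries L)) (Fk : IntermediateField k (LaurentSeries k))
    [HasPrincipalDivisors L F]
    (hconst : ∀ u : F, u ≠ 0 → (∀ v : Place L F, v.ord u = 0) → ∃ c : L, u = algebraMap L F c)
    (hF1 : ∀ P : Place L F, P.deg = 1)
    (g : ℕ) (G1 : RiemannInput L F g) (G2 : NonSpecialInput k Fk g)
    (hInf : ∀ S : Finset (Place k Fk), ∃ x, x ∉ S)
    (r : Place L F → Place k Fk) (hdeg : ∀ P, (r P).deg = P.deg)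
    (hii : HypII π F Fk r)
    (hiii : Divisor.principal (K := L) (F := F) ≤ AddSubgroup.closure (intDivs π F Fk))
    (hU : LocalCoordInput π F Fk r) (m : ℕ) (hm : (m : k) ≠ 0)
    (U₁ U₂ : LaurentSeries A) (h₁F : coeffMap A.subtype U₁ ∈ F) (h₂F : coeffMap A.subtype U₂ ∈ F)
    (h₁k : coeffMap π U₁ ∈ Fk) (h₂k : coeffMap π U₂ ∈ Fk) (hne : coeffMap π U₂ ≠ 0)
    (heq : coeffMap π U₁ = coeffMap π U₂)
    (hdiv : ∀ v : Place L F, (m : ℤ) ∣
      v.ord (⟨coeffMap A.subtype U₁, h₁F⟩ : F) - v.ord (⟨coeffMap A.subtype U₂, h₂F⟩ : F)) :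
    ∃ (c : L) (y : F), c ≠ 0 ∧ y ≠ 0 ∧
      (⟨coeffMap A.subtype U₁, h₁F⟩ : F) = algebraMap L F c * y ^ m * ⟨coeffMap A.subtype U₂, h₂F⟩ := by
  classical
  have hm0 : (m : ℤ) ≠ 0 := by
    intro h
    have : m = 0 := by exact_mod_cast h
    rw [this] at hm
    exact hm (by simp)
  obtain ⟨RD, hRD⟩ : ∃ RD : RedData A π F Fk r, RD.Red = IsRed π F Fk :=
    ⟨redDataOf hπs hπk hconst hii hiii, rfl⟩
  set u₁ : F := ⟨coeffMap A.subtype U₁, h₁F⟩ with hu₁
  set u₂ : F := ⟨coeffMap A.subtype U₂, h₂F⟩ with hu₂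
  have hu₂0 : u₂ ≠ 0 := by
    intro h0
    have h1 : coeffMap A.subtype U₂ = 0 := congrArg Subtype.val h0
    have : U₂ = 0 := coeffMap_subtype_injective (A := A) (by rw [h1, map_zero])
    exact hne (by rw [this, map_zero])
  have hu₁0 : u₁ ≠ 0 := by
    intro h0
    have h1 : coeffMap A.subtype U₁ = 0 := congrArg Subtype.val h0
    have : U₁ = 0 := coeffMap_subtype_injective (A := A) (by rw [h1, map_zero])
    exact hne (by rw [← heq, this, map_zero])
  set Y : F := u₁ / u₂ with hYdef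
  have hY0 : Y ≠ 0 := div_ne_zero hu₁0 hu₂0
  have hY : RD.Red Y 1 := by
    rw [hRD]
    refine ⟨U₁, U₂, h₁F, h₂F, h₁k, h₂k, hne, ?_, ?_⟩
    · have : Y * u₂ = u₁ := div_mul_cancel₀ u₁ hu₂0
      exact congrArg Subtype.val this
    · rw [heq]
      push_cast
      rw [one_mul]
  have hordY : ∀ v : Place L F, v.ord Y = v.ord u₁ - v.ord u₂ := by
    intro v
    rw [hYdef, div_eq_mul_inv, v.ord_mul hu₁0 (inv_ne_zero hu₂0), v.ord_inv]
    ring
  obtain ⟨DY, hDY, hDYdeg⟩ := HasPrincipalDivisors.exists_divisor (K := L) Y hY0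
  set D : Divisor L F := Finsupp.mapRange (fun n : ℤ => n / (m : ℤ)) (by simp) DY with hDdef
  have hDapply : ∀ v, (m : ℤ) * D v = DY v := by
    intro v
    rw [hDdef, Finsupp.mapRange_apply]
    refine Int.mul_ediv_cancel' ?_
    rw [hDY, hordY]
    exact hdiv v
  have hmD : m • D = DY := by
    ext v
    rw [Finsupp.smul_apply, nsmul_eq_mul, hDapply]
  have hDdeg : Divisor.degree D = 0 := by
    have : (m : ℤ) * Divisor.degree D = 0 := by
      rw [← nsmul_eq_mul, ← map_nsmul, hmD, hDYdeg]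
    rcases mul_eq_zero.mp this with h | h
    · exact absurd h hm0
    · exact h
  have hmDprin : Divisor.IsPrincipal (m • D) := by
    rw [hmD]
    exact ⟨Y, hY0, hDY⟩
  have hrD0 : Finsupp.mapDomain r D = 0 := by
    have h1 : m • Finsupp.mapDomain r D = 0 := by
      rw [← Finsupp.mapDomain_smul, hmD]
      ext Q
      rw [RD.push hY one_ne_zero DY hDY Q, Place.ord_one, Finsupp.zero_apply]
    ext Q
    have h2 := congrArg (fun E : Divisor k Fk => E Q) h1
    simp only [Finsupp.smul_apply, nsmul_eq_mul, Finsupp.zero_apply] at h2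
    rcases mul_eq_zero.mp h2 with h | h
    · exact absurd h hm0
    · rw [h, Finsupp.zero_apply]
  have hrDprin : Divisor.IsPrincipal (Finsupp.mapDomain r D) := by
    refine ⟨1, one_ne_zero, fun Q => ?_⟩
    rw [hrD0, Place.ord_one, Finsupp.zero_apply]
  have hU' : ∃ S₀ : Finset (Place k Fk), ∀ x, x ∉ S₀ →
      ∃ (t : F) (tb : Fk), RD.Red t tb ∧ x.ord tb = 1 ∧ ∀ P, r P = x → 0 ≤ P.ord t := by
    rw [hRD]
    exact hU
  obtain ⟨y, hy0, hy⟩ := endgame RD hdeg hF1 g G1 G2 hU' hInf m hm D hDdeg hmDprin hrDprin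
  have hq0 : Y / y ^ m ≠ 0 := div_ne_zero hY0 (pow_ne_zero _ hy0)
  obtain ⟨c, hc⟩ := hconst (Y / y ^ m) hq0 (fun v => by
    rw [div_eq_mul_inv, v.ord_mul hY0 (inv_ne_zero (pow_ne_zero _ hy0)), v.ord_inv, ord_pow_nat,
      ← hy v, ← hDY v, hDapply]
    ring)
  refine ⟨c, y, ?_, hy0, ?_⟩
  · rintro rfl
    rw [map_zero] at hc
    exact hq0 hc
  · rw [← hc]
    have hym : y ^ m ≠ 0 := pow_ne_zero _ hy0
    rw [hYdef]
    field_simp

end Fermat.Agent.S18.H573
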