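import Fermat.Agent.S18.H573.Final
import Fermat.Agent.Lib.RR.H864.FF1Modular
import Fermat.Agent.Lib.RR.H638.NonSpecial
import Fermat.Agent.Lib.RR.Riemann
import Fermat.Agent.S18.H144.ConstF
import Fermat.Agent.S18.H9.Res

/-!
# S18 (helper573): Route RR/H at level `N`, wired to the shared library `Lib/RR`

`s18_of_gen` : the frozen statement S18 for `(N, ℓ, A, h, m)` from exactly three inputs
* `FF1 k F_{N,k}` : the characteristic-`ℓ` field is a function field in the sense of `Lib/RR`;
* GEN : `genusR (F_N) ≤ genusR (F_{N,k})` (good reduction);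
* `hU` : local coordinates outside a finite set (`LocalCoordInput`).
Everything else (Riemann's inequality on `F_N`, non-special divisors on `F_{N,k}`, CONST_F,
degree one, infinitely many places) is taken from `Lib/RR`, `S24`, `S18/H144`, `S18/H9` on main.
-/

set_option autoImplicit false
set_option synthInstance.maxHeartbeats 400000
set_option maxHeartbeats 1600000

noncomputable section

namespace Fermat.Agent.S18.H573

open AlgebraicCurve ModularCurve HahnSeries IsLocalRing Fermat.Agent.Lib.RR

section Generic

variable {K F : Type*} [Field K] [Field F] [Algebra K F]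

/-- Riemann's inequality in the form used by the endgame. -/
theorem riemannInput_of_ff1 [FF1 K F] : RiemannInput K F (genusR K F) := by
  intro D hD
  have h1 := riemann_inequality (K := K) (F := F) D
  have hpos : 0 < ell D := by
    have : (0 : ℤ) < (ell D : ℤ) := by omega
    exact_mod_cast this
  have hex : ∃ f : riemannRochSpace D, f ≠ 0 := by
    by_contra hcon
    push Not at hcon
    have : Subsingleton (riemannRochSpace D) := ⟨fun a b => by rw [hcon a, hcon b]⟩
    have : ell D = 0 := Module.finrank_zero_of_subsingleton
    omega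
  obtain ⟨⟨f, hf⟩, hf0⟩ := hex
  have hf0' : f ≠ 0 := fun h0 => hf0 (Subtype.ext h0)
  refine ⟨f, hf0', fun P => ?_⟩
  rcases (mem_L_iff.mp hf) P with h | h
  · exact absurd h hf0'
  · omega

/-- Non-special reduced effective divisors of any degree `g ≤ genusR`. -/
theorem nonSpecialInput_of_ff1 [FF1 K F] [Infinite K] {g : ℕ} (hg : g ≤ genusR K F) :
    NonSpecialInput K F g := by
  intro S
  have : Infinite (Place K F) := H638.infinite_place
  have hgen : H638.IsRiemannGenus K F (genusR K F) := exists_degree_bound (K := K) (F := F)
  obtain ⟨T, hc, hdisj, hT⟩ := H638.exists_nonspecial' hgen S g hg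
  refine ⟨T, hdisj, ?_, fun fb _ h1 h2 => ?_⟩
  · rw [Finset.sum_congr rfl (fun x _ => by rw [FF1.deg_eq_one (K := K) x]), Finset.sum_const,
      hc]
    simp
  · obtain ⟨a, ha⟩ := hT fb h1 h2
    exact ⟨a, ha.symm⟩

end Generic

/-- **The frozen statement S18 from FF1 in characteristic `ℓ`, GEN and local coordinates.** -/
theorem s18_of_gen (N : ℕ) [NeZero N] {ℓ : ℕ} [Fact ℓ.Prime]
    (A : ValuationSubring (AlgebraicClosure ℚ)) (hA : A.LiesOverPrime ℓ)
    (h : ModularCurve.ReductionInputsModL A N) (m : ℕ) (hm : ¬ ℓ ∣ m)
    (hFFk : FF1 (ResidueField A) (modularFunctionFieldFullC (ResidueField A) N))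
    (hgen : haveI := H864.ff1_modularFunctionFieldBar N
      genusR (AlgebraicClosure ℚ) (modularFunctionFieldBar N) ≤
        genusR (ResidueField A) (modularFunctionFieldFullC (ResidueField A) N))
    (hU : ∀ r : Place (AlgebraicClosure ℚ) (modularFunctionFieldBar N) →
        Place (ResidueField A) (modularFunctionFieldFullC (ResidueField A) N),
      IsPlaceReductionModL A N r → PrincipalGeneratedByIntegral A (residue A) N →
      LocalCoordInput (residue A) (modularFunctionFieldBar N)
        (modularFunctionFieldFullC (ResidueField A) N) r)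
    (z : ModularCurve.JZero N) (hmz : m • z = 0) (hz : ModularCurve.reductionModL A N z = 0) :
    z = 0 := by
  have hFF := H864.ff1_modularFunctionFieldBar N
  have := hFF.hpd
  have : IsAlgClosed (ResidueField A) := H9.resAlgClosed (AlgebraicClosure ℚ) A
  have : Infinite (ResidueField A) := IsAlgClosed.instInfinite
  have : Infinite (Place (ResidueField A) (modularFunctionFieldFullC (ResidueField A) N)) :=
    H638.infinite_place
  refine s18_of_inputs N A hA h m hm
    (fun u hu0 hu => H144.constOfOrdZero_modularFunctionFieldBar N u hu0 hu)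
    (fun P => FF1.deg_eq_one (K := AlgebraicClosure ℚ) P)
    (genusR (AlgebraicClosure ℚ) (modularFunctionFieldBar N))
    riemannInput_of_ff1 (nonSpecialInput_of_ff1 hgen)
    (fun S => Infinite.exists_notMem_finset S) hU z hmz hz

end Fermat.Agent.S18.H573
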